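/-
Programme MAZ (S15), brick K3-ASM (helper7): THE ABSTRACT ASSEMBLY OF (K3).

`(K3)` : `∃ M₁ > 0, ∀ k, ∀ y ∈ Q, ∃ z' : J, r ^ k • z' = M₁ • y ∧ z'` fixed by inertia,
for `J = J₀(N)(ℚ̄)` (GLOBAL points), `Q ≤ J` a finitely generated group of rational points, `N = 4p`.

The local argument lives in `A = Pic X_{ℚ̄_p}` (T1B's `Local66.Union.Atop`), on which only the LOCAL
inertia group `I'` acts; `res : I' →* G` is `localGaloisToGlobal` restricted to inertia.  Inputs: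

* (BRIDGE) `j : J →+ A` injective, `I'`-equivariant, with values in the classes of points `Pt`
  (DIV-BRIDGE: the dictionary on ALL of `J₀(N)(ℚ̄)`, not only on the `p`-torsion);
* (Φ)      `LocalGeom.phi` with `t = 0`: an inertia-fixed class of points is congruent modulo `J0` to
  an element of `C`;
* (CUSP')  `n₀ • z ∈ J0` for the `z ∈ C` congruent modulo `J0` to a class `j x` (degree `0`);
* (TORS)   `J0 / J1` is a torsion group (U3');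
* (FORMAL') `J1` is inertia-stable and uniquely `r`-divisible (U2);
* (DIV)    `J` is `r`-divisible;
* (TORS-CMP) `A[r ^ k] ⊆ j(J)`  (local torsion is algebraic).

Conclusion: `k3_of_local`.  The local step alone (a LOCAL inertia-fixed root `ξ ∈ J1` of `M • j y`) is
`exists_local_root`; the globalisation (T5 of plan v1.2) is `exists_global_root`.
Imports: Mathlib + `MAZ/K3Abs43/Main` (iterated divisibility, uniformisation over a f.g. group).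
-/
import Mathlib
import Fermat.Agent.MAZ.K3Abs43.Main

set_option autoImplicit false
set_option linter.unusedSectionVars false
set_option linter.unusedVariables false
set_option linter.style.haveILetI false

namespace Fermat.Agent.MAZ.K3Asm7

open Fermat.Agent.MAZ.K3Abs43

section Local

variable {I' A : Type*} [Group I'] [AddCommGroup A] [DistribMulAction I' A]

/-- **The local step, pointwise.**  An inertia-fixed class of points `y` with (Φ), (CUSP'), (TORS),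
(FORMAL'): some multiple `M • y`, `M > 0`, lies in `J1`. -/
theorem exists_nsmul_mem_J1 (Pt J0 J1 C : AddSubgroup A) (n₀ : ℕ) (hn₀ : 0 < n₀)
    (hphi : ∀ y ∈ Pt, (∀ τ : I', τ • y = y) → ∃ z ∈ C, y - z ∈ J0)
    (htors : ∀ x ∈ J0, ∃ h : ℕ, 0 < h ∧ h • x ∈ J1)
    (y : A) (hyPt : y ∈ Pt) (hyI : ∀ τ : I', τ • y = y)
    (hcusp : ∀ z ∈ C, y - z ∈ J0 → n₀ • z ∈ J0) :
    ∃ M : ℕ, 0 < M ∧ M • y ∈ J1 := by
  obtain ⟨z, hzC, hyz⟩ := hphi y hyPt hyI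
  have h1 : n₀ • y ∈ J0 := by
    have e : n₀ • y = n₀ • (y - z) + n₀ • z := by rw [← smul_add, sub_add_cancel]
    rw [e]
    exact J0.add_mem (J0.nsmul_mem hyz n₀) (hcusp z hzC hyz)
  obtain ⟨h, hh, hw⟩ := htors _ h1
  exact ⟨h * n₀, Nat.mul_pos hh hn₀, by rwa [mul_smul]⟩

/-- **The local root.**  If `w ∈ J1` is inertia-fixed and `J1` is inertia-stable and uniquely
`r`-divisible, then `w` has an inertia-fixed `r ^ k`-th root in `J1`, for every `k`. -/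
theorem exists_fixed_root (J1 : AddSubgroup A) (r : ℕ)
    (hstab : ∀ τ : I', ∀ x ∈ J1, τ • x ∈ J1)
    (hdiv : ∀ x ∈ J1, ∃ x' ∈ J1, r • x' = x)
    (hinj : ∀ x ∈ J1, r • x = 0 → x = 0)
    (w : A) (hw : w ∈ J1) (hwI : ∀ τ : I', τ • w = w) (k : ℕ) :
    ∃ ξ ∈ J1, r ^ k • ξ = w ∧ ∀ τ : I', τ • ξ = ξ := by
  obtain ⟨z, hz, hzw⟩ := exists_pow_smul_eq J1 r hdiv k w hw
  refine ⟨z, hz, hzw, fun τ => ?_⟩
  have h3 : τ • z - z ∈ J1 := J1.sub_mem (hstab τ z hz) hz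
  have h4 : r ^ k • (τ • z - z) = 0 := by
    rw [smul_sub, smul_comm (r ^ k) τ z, hzw, hwI τ, sub_self]
  exact sub_eq_zero.1 (eq_zero_of_pow_smul_eq_zero J1 r hinj k _ h3 h4)

end Local

section Global

variable {G I' J A : Type*} [Group G] [Group I'] [AddCommGroup J] [AddCommGroup A]
  [DistribMulAction G J] [DistribMulAction I' A]

/-- **Globalisation (T5).**  A LOCAL inertia-fixed `r ^ k`-th root `ξ` of `j x` comes from a GLOBAL
inertia-fixed `r ^ k`-th root of `x`, as soon as `J` is `r ^ k`-divisible and the local `r ^ k`-torsion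
is algebraic. -/
theorem exists_global_root (res : I' →* G) (j : J →+ A) (hj : Function.Injective j)
    (hjres : ∀ (τ : I') (x : J), j (res τ • x) = τ • j x) (r k : ℕ)
    (hJdiv : ∀ x : J, ∃ y : J, r ^ k • y = x)
    (hcmp : ∀ a : A, r ^ k • a = 0 → ∃ t : J, j t = a)
    (x : J) (ξ : A) (hξ : r ^ k • ξ = j x) (hξI : ∀ τ : I', τ • ξ = ξ) :
    ∃ z' : J, r ^ k • z' = x ∧ ∀ τ : I', res τ • z' = z' := by
  obtain ⟨z'', hz''⟩ := hJdiv x
  have h0 : r ^ k • (j z'' - ξ) = 0 := by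
    rw [smul_sub, ← map_nsmul, hz'', hξ, sub_self]
  obtain ⟨t, ht⟩ := hcmp _ h0
  have hjz : j (z'' - t) = ξ := by rw [map_sub, ht, sub_sub_cancel]
  refine ⟨z'' - t, hj ?_, fun τ => hj ?_⟩
  · rw [map_nsmul, hjz, hξ]
  · rw [hjres, hjz, hξI]

/-- **(K3), pointwise**: for an inertia-fixed global point `y` (e.g. a rational point). -/
theorem exists_division_point (res : I' →* G) (j : J →+ A) (hj : Function.Injective j)
    (hjres : ∀ (τ : I') (x : J), j (res τ • x) = τ • j x)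
    (Pt J0 J1 C : AddSubgroup A) (hjPt : ∀ x, j x ∈ Pt) (r n₀ : ℕ) (hn₀ : 0 < n₀)
    (hphi : ∀ y ∈ Pt, (∀ τ : I', τ • y = y) → ∃ z ∈ C, y - z ∈ J0)
    (hcusp : ∀ x : J, ∀ z ∈ C, j x - z ∈ J0 → n₀ • z ∈ J0)
    (htors : ∀ x ∈ J0, ∃ h : ℕ, 0 < h ∧ h • x ∈ J1)
    (hstab : ∀ τ : I', ∀ x ∈ J1, τ • x ∈ J1)
    (hdiv : ∀ x ∈ J1, ∃ x' ∈ J1, r • x' = x)
    (hinj : ∀ x ∈ J1, r • x = 0 → x = 0)
    (hJdiv : ∀ (k : ℕ) (x : J), ∃ y : J, r ^ k • y = x)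
    (hcmp : ∀ (k : ℕ) (a : A), r ^ k • a = 0 → ∃ t : J, j t = a)
    (y : J) (hy : ∀ τ : I', res τ • y = y) :
    ∃ M : ℕ, 0 < M ∧ ∀ k : ℕ, ∃ z' : J, r ^ k • z' = M • y ∧ ∀ τ : I', res τ • z' = z' := by
  have hyI : ∀ τ : I', τ • j y = j y := fun τ => by rw [← hjres, hy]
  obtain ⟨M, hM, hMy⟩ := exists_nsmul_mem_J1 Pt J0 J1 C n₀ hn₀ hphi htors (j y) (hjPt y) hyI
    (hcusp y)
  refine ⟨M, hM, fun k => ?_⟩
  have hwI : ∀ τ : I', τ • (M • j y) = M • j y := fun τ => by rw [smul_comm, hyI]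
  obtain ⟨ξ, -, hξ, hξI⟩ := exists_fixed_root J1 r hstab hdiv hinj (M • j y) hMy hwI k
  exact exists_global_root res j hj hjres r k (hJdiv k) (hcmp k) (M • y) ξ
    (by rw [hξ, map_nsmul]) hξI

/-- Uniformisation over a finitely generated group of points, for the action of `I'` through
`res : I' →* G` (= `K3Abs43.exists_uniform_of_fg` for the pulled-back action). -/
theorem exists_uniform_of_fg_res (res : I' →* G) (Q : AddSubgroup J) (hfg : Q.FG) (r : ℕ)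
    (h : ∀ y ∈ Q, ∃ M : ℕ, 0 < M ∧
      ∀ k : ℕ, ∃ z' : J, r ^ k • z' = M • y ∧ ∀ τ : I', res τ • z' = z') :
    ∃ M₁ : ℕ, 0 < M₁ ∧ ∀ k : ℕ, ∀ y ∈ Q, ∃ z' : J, r ^ k • z' = M₁ • y ∧
      ∀ τ : I', res τ • z' = z' := by
  letI : DistribMulAction I' J := DistribMulAction.compHom J res
  have hsm : ∀ (τ : I') (x : J), τ • x = res τ • x := fun _ _ => rfl
  obtain ⟨M₁, hM₁, hk⟩ := exists_uniform_of_fg (I := I') Q hfg r
    (fun y hy => by
      obtain ⟨M, hM, hMk⟩ := h y hy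
      exact ⟨M, hM, fun k => by
        obtain ⟨z', hz', hz'I⟩ := hMk k
        exact ⟨z', hz', fun s => by rw [hsm, hz'I]⟩⟩)
  exact ⟨M₁, hM₁, fun k y hy => by
    obtain ⟨z', hz', hz'I⟩ := hk k y hy
    exact ⟨z', hz', fun τ => by rw [← hsm, hz'I]⟩⟩

/-- **(K3), uniform form**: THE ABSTRACT ASSEMBLY.  `Q` a finitely generated group of `G`-fixed
(rational) points of `J`. -/
theorem k3_of_local (res : I' →* G) (j : J →+ A) (hj : Function.Injective j)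
    (hjres : ∀ (τ : I') (x : J), j (res τ • x) = τ • j x)
    (Pt J0 J1 C : AddSubgroup A) (hjPt : ∀ x, j x ∈ Pt) (r n₀ : ℕ) (hn₀ : 0 < n₀)
    (hphi : ∀ y ∈ Pt, (∀ τ : I', τ • y = y) → ∃ z ∈ C, y - z ∈ J0)
    (hcusp : ∀ x : J, ∀ z ∈ C, j x - z ∈ J0 → n₀ • z ∈ J0)
    (htors : ∀ x ∈ J0, ∃ h : ℕ, 0 < h ∧ h • x ∈ J1)
    (hstab : ∀ τ : I', ∀ x ∈ J1, τ • x ∈ J1)
    (hdiv : ∀ x ∈ J1, ∃ x' ∈ J1, r • x' = x)
    (hinj : ∀ x ∈ J1, r • x = 0 → x = 0)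
    (hJdiv : ∀ (k : ℕ) (x : J), ∃ y : J, r ^ k • y = x)
    (hcmp : ∀ (k : ℕ) (a : A), r ^ k • a = 0 → ∃ t : J, j t = a)
    (Q : AddSubgroup J) (hfg : Q.FG) (hQ : ∀ y ∈ Q, ∀ g : G, g • y = y) :
    ∃ M₁ : ℕ, 0 < M₁ ∧ ∀ k : ℕ, ∀ y ∈ Q, ∃ z' : J, r ^ k • z' = M₁ • y ∧
      ∀ τ : I', res τ • z' = z' :=
  exists_uniform_of_fg_res res Q hfg r fun y hy =>
    exists_division_point res j hj hjres Pt J0 J1 C hjPt r n₀ hn₀ hphi hcusp htors hstab hdiv hinj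
      hJdiv hcmp y (fun τ => hQ y hy (res τ))

/-- (CUSP') in the `(c, m)` form of `K3Abs43`: `C`-classes congruent to a `j x` are multiples of one
class `c` modulo `J0`, and `n₀ • c ∈ J0`. -/
theorem hcusp_of_generator (j : J →+ A) (J0 C : AddSubgroup A) (c : A) (n₀ : ℕ)
    (hdeg : ∀ x : J, ∀ z ∈ C, j x - z ∈ J0 → ∃ m : ℤ, z - m • c ∈ J0)
    (hc : n₀ • c ∈ J0) :
    ∀ x : J, ∀ z ∈ C, j x - z ∈ J0 → n₀ • z ∈ J0 := by
  intro x z hz hxz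
  obtain ⟨m, hm⟩ := hdeg x z hz hxz
  have e : n₀ • z = n₀ • (z - m • c) + m • (n₀ • c) := by
    have e0 : n₀ • c = (n₀ : ℤ) • c := (natCast_zsmul c n₀).symm
    rw [e0, smul_comm m (n₀ : ℤ) c, ← natCast_zsmul (z - m • c), ← smul_add, sub_add_cancel,
      natCast_zsmul]
  rw [e]
  exact J0.add_mem (J0.nsmul_mem hm n₀) (J0.zsmul_mem hc m)

/-- An integer divisible by `r ^ k` for all `k` (`r ≥ 2`) is zero. -/
theorem int_eq_zero_of_forall_pow_dvd {r : ℕ} (hr : 1 < r) {a : ℤ}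
    (h : ∀ k : ℕ, ((r : ℤ) ^ k) ∣ a) : a = 0 := by
  by_contra ha
  have h1 : ((r : ℤ) ^ a.natAbs) ∣ a := h a.natAbs
  have h2 : (r : ℤ) ^ a.natAbs ≤ |a| := by
    have := Int.le_of_dvd (abs_pos.2 ha) ((dvd_abs _ _).2 h1)
    exact this
  have h3 : (a.natAbs : ℤ) < (r : ℤ) ^ a.natAbs := by
    exact_mod_cast Nat.lt_pow_self hr
  rw [Int.abs_eq_natAbs] at h2
  omega

/-- A homomorphism to `ℤ` kills every `r`-divisible subgroup (`r ≥ 2`). -/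
theorem hom_eq_zero_of_divisible {B : Type*} [AddCommGroup B] (δ : B →+ ℤ) {r : ℕ} (hr : 1 < r)
    (S : AddSubgroup B) (hS : ∀ x ∈ S, ∃ x' ∈ S, r • x' = x) : ∀ x ∈ S, δ x = 0 := by
  intro x hx
  refine int_eq_zero_of_forall_pow_dvd hr fun k => ?_
  obtain ⟨y, -, hy⟩ := exists_pow_smul_eq S r hS k x hx
  refine ⟨δ y, ?_⟩
  rw [← hy, map_nsmul, nsmul_eq_mul]
  push_cast
  ring

/-- **(CUSP') from a degree.**  `C` is generated by two classes `ρ₁ ρ₂` of the same nonzero degree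
`δ ρ₁ = δ ρ₂ = d` (`δ : A →+ ℤ` ANY homomorphism), `n₀ • (ρ₁ - ρ₂) ∈ J0`.  Since `J` and `J1` are
`r`-divisible and `J0 / J1` is torsion, `δ` vanishes on `j(J) + J0` AUTOMATICALLY; hence a `z ∈ C`
congruent to some `j x` modulo `J0` is a multiple of `ρ₁ - ρ₂`, and `n₀ • z ∈ J0`. -/
theorem hcusp_of_degree (j : J →+ A) (J0 J1 C : AddSubgroup A) (ρ₁ ρ₂ : A)
    (hC : ∀ z ∈ C, ∃ m₁ m₂ : ℤ, z = m₁ • ρ₁ + m₂ • ρ₂)
    (δ : A →+ ℤ) (d : ℤ) (hd : d ≠ 0) (hδ₁ : δ ρ₁ = d) (hδ₂ : δ ρ₂ = d)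
    (r : ℕ) (hr : 1 < r)
    (hJdiv : ∀ x : J, ∃ y : J, r • y = x)
    (hdiv : ∀ x ∈ J1, ∃ x' ∈ J1, r • x' = x)
    (htors : ∀ x ∈ J0, ∃ h : ℕ, 0 < h ∧ h • x ∈ J1)
    (n₀ : ℕ) (hc : n₀ • (ρ₁ - ρ₂) ∈ J0) :
    ∀ x : J, ∀ z ∈ C, j x - z ∈ J0 → n₀ • z ∈ J0 := by
  have hδJ1 : ∀ x ∈ J1, δ x = 0 := hom_eq_zero_of_divisible δ hr J1 hdiv
  have hδJ0 : ∀ x ∈ J0, δ x = 0 := by
    intro x hx
    obtain ⟨h, hh, hhx⟩ := htors x hx
    have h1 := hδJ1 _ hhx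
    rw [map_nsmul, nsmul_eq_mul] at h1
    rcases mul_eq_zero.1 h1 with h2 | h2
    · exact absurd (by exact_mod_cast h2) hh.ne'
    · exact h2
  have hδj : ∀ x : J, δ (j x) = 0 := by
    intro x
    have := hom_eq_zero_of_divisible (δ.comp j) hr ⊤
      (fun x _ => by obtain ⟨y, hy⟩ := hJdiv x; exact ⟨y, AddSubgroup.mem_top y, hy⟩) x
      (AddSubgroup.mem_top x)
    exact this
  intro x z hz hxz
  obtain ⟨m₁, m₂, rfl⟩ := hC z hz
  have h1 := hδJ0 _ hxz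
  rw [map_sub, hδj, zero_sub, neg_eq_zero, map_add, map_zsmul, map_zsmul, hδ₁, hδ₂,
    smul_eq_mul, smul_eq_mul, ← add_mul] at h1
  have h2 : m₂ = -m₁ := by
    rcases mul_eq_zero.1 h1 with h | h
    · omega
    · exact absurd h hd
  have e : n₀ • (m₁ • ρ₁ + m₂ • ρ₂) = m₁ • (n₀ • (ρ₁ - ρ₂)) := by
    rw [h2, neg_smul, ← sub_eq_add_neg, ← smul_sub, smul_comm]
  rw [e]
  exact J0.zsmul_mem hc m₁

end Global

end Fermat.Agent.MAZ.K3Asm7
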