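/-
Programme MAZ (S15), brick K3-ASM (helper7): (δ) THE DEGREE ON THE GENERIC FIBRE AND POINT CLASSES.

`c0 : TwoChart W B0 B1 B01`, `Ω` a field over `W` such that `X_Ω` is an integral two-chart curve
(charts domains, finite projective over the line).  `Bal60.degHom` is the degree `χ(L) - χ(O)`.

* `degHom_ptClass0`, `degHom_ptClass1`, `degHom_of_isPtClass` : a point class `[O(-q)]` has degree `-1`.
* `degTop c0 hc : Atop p K c0 →+ ℤ` : the degree on `A = Additive (Pic X_{ℚ̄_p})`;
  `degTop_bcO_of_isPtClass` : `degTop (ofMul (bcO c0 E r)) = -1` for the class `r` of an `O_E`-point.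

This is the input (δ) of `K3Asm7.k3_local_ext` / `leafK3_of_local` (`d := -1`).
-/
import Mathlib
import Fermat.Agent.T1B.Bal60.Swap
import Fermat.Agent.T1.PtLine75
import Fermat.Agent.T1B.Local66.Union

set_option autoImplicit false
set_option linter.unusedSectionVars false
set_option linter.unusedVariables false
set_option linter.style.haveILetI false
set_option synthInstance.maxHeartbeats 400000
set_option maxHeartbeats 1000000

open TensorProduct

noncomputable section

namespace Fermat.Agent.MAZ.K3Asm7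

open Fermat.Agent.Jac Fermat.Agent.Jac.LineOps39 Fermat.Agent.Jac.JSmooth85Alg
  Fermat.Agent.Jac.JGroup85Pic Fermat.Agent.Jac.BaseChange75
  Fermat.Agent.T1.RedIface75 Fermat.Agent.T1.PtLine75 Fermat.Agent.T1B.Bal60
open scoped Fermat.Agent.Jac.BaseChange75

section Field

universe u

variable {W B0 B1 B01 : Type u} [CommRing W] [CommRing B0] [CommRing B1] [CommRing B01]
  [Algebra W B0] [Algebra W B1] [Algebra W B01] [Algebra B0 B01] [Algebra B1 B01]
  [IsScalarTower W B0 B01] [IsScalarTower W B1 B01]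
  (c0 : TwoChart W B0 B1 B01)
  (Ω : Type u) [Field Ω] [Algebra W Ω]
  [IsDomain (Ω ⊗[W] B0)] [IsDomain (Ω ⊗[W] B1)] [Nontrivial (Ω ⊗[W] B01)]
  (hc : (c0.baseChange Ω).FiniteProjOverLine)

/-- The coordinate ring of an `Ω`-point has dimension `1`. -/
theorem finrank_quot_ptIdeal {B : Type u} [CommRing B] [Algebra W B] (q : B →ₐ[W] Ω) :
    Module.finrank Ω ((Ω ⊗[W] B) ⧸ ptIdeal q) = 1 := by
  rw [LinearEquiv.finrank_eq (quotPtIdealEquiv q).toLinearEquiv, Module.finrank_self]

/-- **A chart-0 point class has degree `-1`.** -/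
theorem degHom_ptClass0 (q : B0 →ₐ[W] Ω) (h : Module.Invertible (Ω ⊗[W] B0) (ptIdeal q)) :
    degHom (c0.baseChange Ω) hc (ptClass0 c0 q h) = Multiplicative.ofAdd (-1 : ℤ) := by
  haveI := finite_quot_ptIdeal q
  haveI := h
  have h1 := lineDeg_ofIdeals_ofChart0 (c0.baseChange Ω) hc (ptIdeal q)
  rw [finrank_quot_ptIdeal] at h1
  show degHom (c0.baseChange Ω) hc
    (LinePic.mk (c0.baseChange Ω) (ofIdeals (c0.baseChange Ω) (ptPair0 c0 q))
      (isLine_ptPair0 c0 q h)) = _
  rw [degHom_mk]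
  exact congrArg Multiplicative.ofAdd (by exact_mod_cast h1)

/-- **A chart-1 point class has degree `-1`.** -/
theorem degHom_ptClass1 (q : B1 →ₐ[W] Ω) (h : Module.Invertible (Ω ⊗[W] B1) (ptIdeal q)) :
    degHom (c0.baseChange Ω) hc (ptClass1 c0 q h) = Multiplicative.ofAdd (-1 : ℤ) := by
  haveI := finite_quot_ptIdeal q
  haveI := h
  have h1 := lineDeg_ofIdeals_ofChart1 (c0.baseChange Ω) hc (ptIdeal q)
  rw [finrank_quot_ptIdeal] at h1
  show degHom (c0.baseChange Ω) hc
    (LinePic.mk (c0.baseChange Ω) (ofIdeals (c0.baseChange Ω) (ptPair1 c0 q))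
      (isLine_ptPair1 c0 q h)) = _
  rw [degHom_mk]
  exact congrArg Multiplicative.ofAdd (by exact_mod_cast h1)

/-- **Every point class has degree `-1`.** -/
theorem degHom_of_isPtClass {x : PicX c0 Ω} (hx : IsPtClass c0 Ω x) :
    degHom (c0.baseChange Ω) hc x = Multiplicative.ofAdd (-1 : ℤ) := by
  rcases hx with ⟨q, h, rfl⟩ | ⟨q, h, rfl⟩
  · exact degHom_ptClass0 c0 Ω hc q h
  · exact degHom_ptClass1 c0 Ω hc q h

end Field

/-! ### The degree on `A = Additive (Pic X_{ℚ̄_p})` -/

section Top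

open Fermat.Agent.TW.B5.Iface Fermat.Agent.RED.Interface4 Fermat.Agent.T1.HubInst98
open Fermat.Agent.T1.IntSub47
open Fermat.Agent.T1B.Local66.LocalBase Fermat.Agent.T1B.Local66.Union

variable {p : ℕ} [Fact p.Prime] {K : IntermediateField ℚ Qbar}
  {B0 B1 B01 : Type} [CommRing B0] [CommRing B1] [CommRing B01]
  [Algebra (Wb p K) B0] [Algebra (Wb p K) B1] [Algebra (Wb p K) B01] [Algebra B0 B01]
  [Algebra B1 B01] [IsScalarTower (Wb p K) B0 B01] [IsScalarTower (Wb p K) B1 B01]
  (c0 : TwoChart (Wb p K) B0 B1 B01)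

/-- **The degree `A →+ ℤ`** on the generic fibre over `ℚ̄_p` (an integral two-chart curve: the charts
`ℚ̄_p ⊗ B_j` are domains, finite projective over the line). -/
def degTop
    (hd0 : letI := algWKbar p K; IsDomain (Kbar p ⊗[Wb p K] B0))
    (hd1 : letI := algWKbar p K; IsDomain (Kbar p ⊗[Wb p K] B1))
    (hnt : letI := algWKbar p K; Nontrivial (Kbar p ⊗[Wb p K] B01))
    (hc : letI := algWKbar p K; (c0.baseChange (Kbar p)).FiniteProjOverLine) :
    Atop p K c0 →+ ℤ :=
  letI := algWKbar p K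
  haveI := hd0
  haveI := hd1
  haveI := hnt
  MonoidHom.toAdditiveLeft (degHom (c0.baseChange (Kbar p)) hc)

theorem degTop_ofMul
    (hd0 : letI := algWKbar p K; IsDomain (Kbar p ⊗[Wb p K] B0))
    (hd1 : letI := algWKbar p K; IsDomain (Kbar p ⊗[Wb p K] B1))
    (hnt : letI := algWKbar p K; Nontrivial (Kbar p ⊗[Wb p K] B01))
    (hc : letI := algWKbar p K; (c0.baseChange (Kbar p)).FiniteProjOverLine)
    (x : PicTop p K c0) :
    degTop c0 hd0 hd1 hnt hc (Additive.ofMul x) =
      (letI := algWKbar p K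
       haveI := hd0
       haveI := hd1
       haveI := hnt
       Multiplicative.toAdd (degHom (c0.baseChange (Kbar p)) hc x)) := rfl

/-- **The degree of the class of an `O_E`-point is `-1`.** -/
theorem degTop_bcO_of_isPtClass
    (hd0 : letI := algWKbar p K; IsDomain (Kbar p ⊗[Wb p K] B0))
    (hd1 : letI := algWKbar p K; IsDomain (Kbar p ⊗[Wb p K] B1))
    (hnt : letI := algWKbar p K; Nontrivial (Kbar p ⊗[Wb p K] B01))
    (hc : letI := algWKbar p K; (c0.baseChange (Kbar p)).FiniteProjOverLine)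
    (E : NLevel p K) (r : PicO c0 E)
    (hr : letI := algWO E.lev; IsPtClass c0 ↥(intSubring p E.E) r) :
    degTop c0 hd0 hd1 hnt hc (Additive.ofMul (bcO c0 E r)) = -1 := by
  letI := algWO E.lev
  letI := algWKbar p K
  letI := algOKbar E.E
  haveI := tower_W_O_Kbar E.lev
  haveI := hd0
  haveI := hd1
  haveI := hnt
  have h1 : IsPtClass c0 (Kbar p) (bcO c0 E r) := IsPtClass.map c0 hr
  rw [degTop_ofMul, degHom_of_isPtClass c0 (Kbar p) hc h1]
  rfl

end Top

end Fermat.Agent.MAZ.K3Asm7
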