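/-
Programme MAZ (S15), brick K3-ASM (helper7): THE UNION LAYER.

The local hypotheses of `K3Asm7.k3_of_local` on `A = Atop p K c0 = Additive (Pic X_{ℚ̄_p})`
(`T1B/Local66/{Union,Objects}.lean`), for `J0 = Objects.J0top c0 P00 hPP`,
`J1 = Objects.J1top c0 P00 hPP`, from LEVEL-WISE statements on the `Pic X_{O_E}` (`E : NLevel p K`),
for ANY two-chart datum `c0` over `W = Wb p K` and ANY compatible family `P00` (in the application:
the classes of multidegree `0`):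

* (inertia-stability of `J1` is `Objects.smul_mem_J1top`, from `J̃¹(O_E) ≤ P00 E`);
* `tors_J0top`  : (TORS, U3')  `∀ x ∈ P00 E, ∃ h > 0, x ^ h ∈ J̃¹(O_E)`  ⇒  `J0 / J1` is torsion;
* `div_J1top`   : (FORMAL', U2, existence) `r`-divisibility of `P00 E ⊓ J̃¹(O_E)` ⇒ of `J1`;
* `inj_J1top`   : (FORMAL', U2, uniqueness) no `r`-torsion in `P00 E ⊓ J̃¹(O_E)` + (EXT-INJ)
                  `Pic X_{O_E} ⊇ P00 E → Pic X_{ℚ̄_p}` injective  ⇒  no `r`-torsion in `J1`.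
-/
import Mathlib
import Fermat.Agent.T1B.Local66.Objects

set_option autoImplicit false
set_option linter.unusedSectionVars false
set_option linter.unusedVariables false
set_option linter.style.haveILetI false
set_option synthInstance.maxHeartbeats 400000
set_option maxHeartbeats 1000000

open Fermat.Agent.TW.B5.Iface Fermat.Agent.RED.Interface4 Fermat.Agent.T1.HubInst98
open Fermat.Agent.T1.IntSub47 Fermat.Agent.Jac Fermat.Agent.T1.RedIface75
open Fermat.Agent.T1B.Local66.LocalBase Fermat.Agent.T1B.Local66.Union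
open Fermat.Agent.T1B.Local66.Objects
open Fermat.Agent.T1B.Plumb66.Inertia (Ip mem_Ip)
open Fermat.Agent.T1B.Bridge54.IpAction Fermat.Agent.T1B.Bridge54.IpInst
open Fermat.Agent.T1B.Bridge54.IpUnion
open Fermat.Agent.ES.P36.InertField27 (InertFixed)

noncomputable section

namespace Fermat.Agent.MAZ.K3Asm7

variable {p : ℕ} [Fact p.Prime] {K : IntermediateField ℚ Qbar}
  {B0 B1 B01 : Type} [CommRing B0] [CommRing B1] [CommRing B01]
  [Algebra (Wb p K) B0] [Algebra (Wb p K) B1] [Algebra (Wb p K) B01] [Algebra B0 B01]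
  [Algebra B1 B01] [IsScalarTower (Wb p K) B0 B01] [IsScalarTower (Wb p K) B1 B01]
  (c0 : TwoChart (Wb p K) B0 B1 B01) [Nonempty (NLevel p K)]
  (P00 : ∀ E : NLevel p K, Subgroup (PicO c0 E)) (hPP : Compatible c0 P00)

/-- (TORS) on the union: `J0 / J1` is a torsion group. -/
theorem tors_J0top
    (htors : ∀ (E : NLevel p K), ∀ x ∈ P00 E, ∃ h : ℕ, 0 < h ∧ x ^ h ∈ J1Fam c0 E) :
    ∀ x ∈ J0top c0 P00 hPP, ∃ h : ℕ, 0 < h ∧ h • x ∈ J1top c0 P00 hPP := by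
  rintro _ ⟨E, x, hx, rfl⟩
  obtain ⟨h, hh, hxh⟩ := htors E x hx
  refine ⟨h, hh, E, x ^ h, Subgroup.mem_inf.2 ⟨(P00 E).pow_mem hx h, hxh⟩, ?_⟩
  rw [map_pow]
  rfl

/-- (FORMAL'), existence, on the union. -/
theorem div_J1top (r : ℕ)
    (hdiv : ∀ (E : NLevel p K), ∀ x ∈ P00 E ⊓ J1Fam c0 E,
      ∃ x' ∈ P00 E ⊓ J1Fam c0 E, x' ^ r = x) :
    ∀ x ∈ J1top c0 P00 hPP, ∃ x' ∈ J1top c0 P00 hPP, r • x' = x := by
  rintro _ ⟨E, x, hx, rfl⟩
  obtain ⟨x', hx', hxx⟩ := hdiv E x hx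
  refine ⟨Additive.ofMul (bcO c0 E x'), ⟨E, x', hx', rfl⟩, ?_⟩
  rw [← hxx, map_pow]
  rfl

/-- (FORMAL'), uniqueness, on the union (needs (EXT-INJ)). -/
theorem inj_J1top (r : ℕ)
    (hext : ∀ (E : NLevel p K), ∀ x ∈ P00 E, bcO c0 E x = 1 → x = 1)
    (hinj : ∀ (E : NLevel p K), ∀ x ∈ P00 E ⊓ J1Fam c0 E, x ^ r = 1 → x = 1) :
    ∀ x ∈ J1top c0 P00 hPP, r • x = 0 → x = 0 := by
  rintro _ ⟨E, x, hx, rfl⟩ h0
  have h1 : bcO c0 E (x ^ r) = 1 := by
    rw [map_pow]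
    exact h0
  have h2 : x ^ r = 1 := hext E _ ((P00 E).pow_mem (Subgroup.mem_inf.1 hx).1 r) h1
  rw [hinj E x hx h2, map_one]
  rfl

end Fermat.Agent.MAZ.K3Asm7
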