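/-
Programme MAZ (S15), brick K3-ASM (helper7): (K3) AT LEVEL `N` FROM THE LOCAL BRICKS — THE SKELETON.

`c0` ANY two-chart datum over `W = Wb p K` (`K` an inertial number field), `N` ANY level (`N = 4p` in
the application), in the vocabulary of T1B's `Local66/{Union,Objects}.lean`:

  `A := Atop p K c0` (`= Additive (Pic X_{ℚ̄_p})`), inertia acting by `Bridge54.IpInst.actTop c0 hK`,
  `Pt := Objects.PtTop c0`, `J0 := Objects.J0top c0 P00 hPP`, `J1 := Objects.J1top c0 P00 hPP`,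
  `C := Objects.CSub c0 E0 {r₁, r₂}`.

`k3_local` lists, as HYPOTHESES, exactly what each provider brick has to deliver:

* (DIV-BRIDGE, helper7)   `j : JZero N →+ A` injective, inertia-equivariant, with values in `Pt`;
* (Φ, helper45)           `LocalGeom.phi` at `t = 0`;
* (CUSP'-δ)               ANY homomorphism `δ : A →+ ℤ` with `δ ρ₁ = δ ρ₂ ≠ 0` (a degree);
* (CUSP'-c)               `n₀ • (ρ₁ - ρ₂) ∈ J0`  (Ogg at level `p` pulled back + PairExt);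
* (TORS, U3', helper75/22) level-wise: `∀ x ∈ P00 E, ∃ h > 0, x ^ h ∈ J̃¹(O_E)`;
* (FORMAL', U2, helper47) level-wise: `J̃¹(O_E)` is uniquely `r`-divisible;
* (EXT-INJ)               `Pic X_{O_E} ⊇ P00 E → Pic X_{ℚ̄_p}` is injective;
* (DIV)                   `JZero N` is `r`-divisible;
* (TORS-CMP, helper73)    `A[r ^ k] ⊆ j (JZero N)`;
* (MW, S17)               `Q ≤ J₀(N)(ℚ)` a finitely generated group of rational points (in the
                          application: the image of `J₀(p)(ℚ)` under `levelPullback`).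

Conclusion: the hypothesis of helper44's `K3Level44.k3_of_level_mul_image` (with `Ap := padicPlace p`),
once `Q` is the image of `J₀(p)(ℚ)`: `k3_local_image`.
-/
import Mathlib
import Fermat.Agent.MAZ.K3Asm7.Abstract
import Fermat.Agent.MAZ.K3Asm7.UnionLayer

set_option autoImplicit false
set_option linter.unusedSectionVars false
set_option linter.unusedVariables false
set_option linter.style.haveILetI false
set_option synthInstance.maxHeartbeats 400000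
set_option maxHeartbeats 1000000

open Fermat.Agent.TW.B5.Iface Fermat.Agent.RED.Interface4 Fermat.Agent.T1.HubInst98
open Fermat.Agent.T1.IntSub47 Fermat.Agent.Jac Fermat.Agent.T1.RedIface75
open Fermat.Agent.T1B.Local66.LocalBase Fermat.Agent.T1B.Local66.Union
open Fermat.Agent.T1B.Local66.Objects
open Fermat.Agent.T1B.Plumb66.Inertia (Ip mem_Ip)
open Fermat.Agent.T1B.Bridge54.IpAction Fermat.Agent.T1B.Bridge54.IpInst
open Fermat.Agent.T1B.Bridge54.IpUnion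
open Fermat.Agent.ES.P36.InertField27 (InertFixed)
open ModularCurve

noncomputable section

namespace Fermat.Agent.MAZ.K3Asm7

local notation "Γℚ" => (AlgebraicClosure ℚ ≃ₐ[ℚ] AlgebraicClosure ℚ)

variable {p : ℕ} [Fact p.Prime] {K : IntermediateField ℚ Qbar}
  {B0 B1 B01 : Type} [CommRing B0] [CommRing B1] [CommRing B01]
  [Algebra (Wb p K) B0] [Algebra (Wb p K) B1] [Algebra (Wb p K) B01] [Algebra B0 B01]
  [Algebra B1 B01] [IsScalarTower (Wb p K) B0 B01] [IsScalarTower (Wb p K) B1 B01]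
  (c0 : TwoChart (Wb p K) B0 B1 B01) [Nonempty (NLevel p K)]

/-- The restriction `I_p → G_ℚ`. -/
def resIp (p : ℕ) [Fact p.Prime] : ↥(Ip p) →* Γℚ :=
  (localGaloisToGlobal p).comp (Ip p).subtype

@[simp] theorem resIp_apply (τ : ↥(Ip p)) : resIp p τ = localGaloisToGlobal p (τ : Gp p) := rfl

/-- **(K3) at level `N` from the local bricks.** -/
theorem k3_local (hK : InertFixed (padicPlace p) K)
    (P00 : ∀ E : NLevel p K, Subgroup (PicO c0 E)) (hPP : Compatible c0 P00)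
    (hJP : ∀ E, J1Fam c0 E ≤ P00 E)
    {N : ℕ} [NeZero N]
    -- (DIV-BRIDGE)
    (j : JZero N →+ Atop p K c0) (hj : Function.Injective j)
    (hjres : letI := actTop c0 hK
      ∀ (τ : ↥(Ip p)) (x : JZero N), j (localGaloisToGlobal p (τ : Gp p) • x) = τ • j x)
    (hjPt : ∀ x, j x ∈ PtTop c0)
    -- (Φ)
    (E0 : NLevel p K) (r₁ r₂ : PicO c0 E0)
    (hphi : letI := actTop c0 hK
      ∀ y ∈ PtTop c0, (∀ τ : ↥(Ip p), τ • y = y) →
        ∃ z ∈ CSub c0 E0 {r₁, r₂}, y - z ∈ J0top c0 P00 hPP)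
    -- (CUSP')
    (δ : Atop p K c0 →+ ℤ) (d : ℤ) (hd : d ≠ 0)
    (hδ₁ : δ (Additive.ofMul (bcO c0 E0 r₁)) = d) (hδ₂ : δ (Additive.ofMul (bcO c0 E0 r₂)) = d)
    (n₀ : ℕ) (hn₀ : 0 < n₀)
    (hc : n₀ • ((Additive.ofMul (bcO c0 E0 r₁) : Atop p K c0) - Additive.ofMul (bcO c0 E0 r₂)) ∈
      J0top c0 P00 hPP)
    -- (TORS)
    (htors : ∀ (E : NLevel p K), ∀ x ∈ P00 E, ∃ h : ℕ, 0 < h ∧ x ^ h ∈ J1Fam c0 E)
    -- (FORMAL')
    (r : ℕ) (hr : 1 < r)
    (hdiv : ∀ (E : NLevel p K), ∀ x ∈ J1Fam c0 E, ∃ x' ∈ J1Fam c0 E, x' ^ r = x)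
    (hinj : ∀ (E : NLevel p K), ∀ x ∈ J1Fam c0 E, x ^ r = 1 → x = 1)
    -- (EXT-INJ)
    (hext : ∀ (E : NLevel p K), ∀ x ∈ P00 E, bcO c0 E x = 1 → x = 1)
    -- (DIV)
    (hJdiv : ∀ x : JZero N, ∃ y : JZero N, r • y = x)
    -- (TORS-CMP)
    (hcmp : ∀ (k : ℕ) (a : Atop p K c0), r ^ k • a = 0 → ∃ t : JZero N, j t = a)
    -- (MW): a finitely generated group of rational points
    (Q : AddSubgroup (JZero N)) (hfg : Q.FG) (hQ : ∀ y ∈ Q, ∀ g : Γℚ, g • y = y) :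
    ∃ M₁ : ℕ, 0 < M₁ ∧ ∀ k : ℕ, ∀ y ∈ Q,
      ∃ z' : JZero N, r ^ k • z' = M₁ • y ∧
        ∀ s ∈ (padicPlace p).inertiaSubgroupIn ℚ, s • z' = z' := by
  letI := actTop c0 hK
  -- level-wise (FORMAL') on `P00 ⊓ J̃¹`
  have hdiv' : ∀ (E : NLevel p K), ∀ x ∈ P00 E ⊓ J1Fam c0 E,
      ∃ x' ∈ P00 E ⊓ J1Fam c0 E, x' ^ r = x := by
    intro E x hx
    obtain ⟨x', hx', hxx⟩ := hdiv E x (Subgroup.mem_inf.1 hx).2
    exact ⟨x', Subgroup.mem_inf.2 ⟨hJP E hx', hx'⟩, hxx⟩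
  have hinj' : ∀ (E : NLevel p K), ∀ x ∈ P00 E ⊓ J1Fam c0 E, x ^ r = 1 → x = 1 :=
    fun E x hx => hinj E x (Subgroup.mem_inf.1 hx).2
  have hT := tors_J0top c0 P00 hPP htors
  have hD := div_J1top c0 P00 hPP r hdiv'
  have hI := inj_J1top c0 P00 hPP r hext hinj'
  have hstab : ∀ τ : ↥(Ip p), ∀ x ∈ J1top c0 P00 hPP, τ • x ∈ J1top c0 P00 hPP :=
    fun τ x hx => smul_mem_J1top c0 P00 hPP hK hJP τ hx
  have hCusp : ∀ x : JZero N, ∀ z ∈ CSub c0 E0 {r₁, r₂}, j x - z ∈ J0top c0 P00 hPP →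
      n₀ • z ∈ J0top c0 P00 hPP :=
    hcusp_of_degree j (J0top c0 P00 hPP) (J1top c0 P00 hPP) (CSub c0 E0 {r₁, r₂})
      (Additive.ofMul (bcO c0 E0 r₁)) (Additive.ofMul (bcO c0 E0 r₂))
      (fun z hz => (mem_CSub_pair c0 E0 r₁ r₂).1 hz) δ d hd hδ₁ hδ₂ r hr hJdiv hD hT n₀ hc
  have hJdivk : ∀ (k : ℕ) (x : JZero N), ∃ y : JZero N, r ^ k • y = x := by
    intro k
    induction k with
    | zero => exact fun x => ⟨x, by rw [pow_zero, one_smul]⟩
    | succ k ih =>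
      intro x
      obtain ⟨y₁, hy₁⟩ := ih x
      obtain ⟨y₂, hy₂⟩ := hJdiv y₁
      exact ⟨y₂, by rw [pow_succ, mul_smul, hy₂, hy₁]⟩
  obtain ⟨M₁, hM₁, hk⟩ := k3_of_local (G := Γℚ) (resIp p) j hj (fun τ x => hjres τ x)
    (PtTop c0) (J0top c0 P00 hPP) (J1top c0 P00 hPP) (CSub c0 E0 {r₁, r₂}) hjPt r n₀ hn₀ hphi
    hCusp hT hstab hD hI hJdivk hcmp Q hfg hQ
  refine ⟨M₁, hM₁, fun k y hy => ?_⟩
  obtain ⟨z', hz', hz'I⟩ := hk k y hy
  refine ⟨z', hz', ?_⟩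
  exact (Fermat.Agent.T1B.Plumb66.Inertia.forall_IA_iff p (P := fun s => s • z' = z')).2
    (fun τ hτ => hz'I ⟨τ, (mem_Ip p).2 hτ⟩)

/-- The image form consumed by `K3Level44.k3_transfer_image`: `Q = π^* (J₀(N₀)(ℚ))` for ANY additive
Galois-equivariant map `π^* : JZero N₀ →+ JZero N` (e.g. `levelPullback h`) and `J₀(N₀)(ℚ)` finitely
generated (S17). -/
theorem image_fg_fixed {N₀ N : ℕ} [NeZero N₀] [NeZero N] (f : JZero N₀ →+ JZero N)
    (hf : ∀ (g : Γℚ) (x : JZero N₀), f (g • x) = g • f x)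
    (hfg : AddGroup.FG ↥(FixedPoints.addSubgroup Γℚ (JZero N₀))) :
    ((FixedPoints.addSubgroup Γℚ (JZero N₀)).map f).FG ∧
      ∀ y ∈ (FixedPoints.addSubgroup Γℚ (JZero N₀)).map f, ∀ g : Γℚ, g • y = y := by
  classical
  refine ⟨?_, ?_⟩
  · obtain ⟨S, hS⟩ := (AddGroup.fg_iff_addSubgroup_fg _).1 hfg
    exact ⟨S.image f, by rw [Finset.coe_image, ← AddMonoidHom.map_closure, hS]⟩
  · rintro _ ⟨x, hx, rfl⟩ g
    rw [← hf, hx g]

end Fermat.Agent.MAZ.K3Asm7
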