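/-
Programme MAZ (S15), brick K3-ASM (helper7): (K3) AT LEVEL `N` FROM THE LOCAL BRICKS, `C := JextTop` FORM
(helper46's ruling 14:33Z: `LocalGeom.C := Objects.JextTop c0`, the classes which extend to SOME line
over some `O_E`).

Same conclusion as `k3_local`, with (Φ) and (CUSP') replaced by

* (Φ'')  an inertia-fixed class of points lies in `JextTop c0`                [Node45/ExtUp.ext_up];
* (ADJ)  every `z ∈ JextTop c0` is congruent modulo `J0top` to a combination of the two point classes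
         `ρ₁ ρ₂`: `∃ m₀ m₁ : ℤ, z + m₀ • ρ₁ + m₁ • ρ₂ ∈ J0top`             [Bal60/Adjust, CUSP''(b)];
* (δ)    ANY additive `δ : A →+ ℤ` with `δ ρ₁ = δ ρ₂ ≠ 0`                      [degree of a point class];
* (c)    `n₀ • (ρ₁ - ρ₂) ∈ J0top`, `n₀ > 0`                                   [CUSP''(c)].

NO statement "total multidegree = generic degree" is needed: `δ` kills `j (JZero N)`, `J1top`, `J0top`
automatically (`K3Asm7.hcusp_of_degree`).
-/
import Mathlib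
import Fermat.Agent.MAZ.K3Asm7.Local

set_option autoImplicit false
set_option linter.unusedSectionVars false
set_option linter.unusedVariables false
set_option linter.style.haveILetI false
set_option synthInstance.maxHeartbeats 400000
set_option maxHeartbeats 1000000

open Fermat.Agent.TW.B5.Iface Fermat.Agent.RED.Interface4 Fermat.Agent.T1.HubInst98
open Fermat.Agent.T1.IntSub47 Fermat.Agent.Jac Fermat.Agent.T1.RedIface75
open Fermat.Agent.T1B.Local66.LocalBase Fermat.Agent.T1B.Local66.Union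
open Fermat.Agent.T1B.Local66.Objects
open Fermat.Agent.T1B.Plumb66.Inertia (Ip mem_Ip)
open Fermat.Agent.T1B.Bridge54.IpAction Fermat.Agent.T1B.Bridge54.IpInst
open Fermat.Agent.T1B.Bridge54.IpUnion
open Fermat.Agent.ES.P36.InertField27 (InertFixed)
open ModularCurve

noncomputable section

namespace Fermat.Agent.MAZ.K3Asm7

local notation "Γℚ" => (AlgebraicClosure ℚ ≃ₐ[ℚ] AlgebraicClosure ℚ)

variable {p : ℕ} [Fact p.Prime] {K : IntermediateField ℚ Qbar}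
  {B0 B1 B01 : Type} [CommRing B0] [CommRing B1] [CommRing B01]
  [Algebra (Wb p K) B0] [Algebra (Wb p K) B1] [Algebra (Wb p K) B01] [Algebra B0 B01]
  [Algebra B1 B01] [IsScalarTower (Wb p K) B0 B01] [IsScalarTower (Wb p K) B1 B01]
  (c0 : TwoChart (Wb p K) B0 B1 B01) [Nonempty (NLevel p K)]

/-- **(K3) at level `N` from the local bricks, `C := JextTop` form.** -/
theorem k3_local_ext (hK : InertFixed (padicPlace p) K)
    (P00 : ∀ E : NLevel p K, Subgroup (PicO c0 E)) (hPP : Compatible c0 P00)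
    (hJP : ∀ E, J1Fam c0 E ≤ P00 E)
    {N : ℕ} [NeZero N]
    -- (J-ALL)
    (j : JZero N →+ Atop p K c0) (hj : Function.Injective j)
    (hjres : letI := actTop c0 hK
      ∀ (τ : ↥(Ip p)) (x : JZero N), j (localGaloisToGlobal p (τ : Gp p) • x) = τ • j x)
    (hjPt : ∀ x, j x ∈ PtTop c0)
    -- (Φ'')
    (hphi : letI := actTop c0 hK
      ∀ y ∈ PtTop c0, (∀ τ : ↥(Ip p), τ • y = y) → y ∈ JextTop c0)
    -- (ADJ)
    (E0 : NLevel p K) (r₁ r₂ : PicO c0 E0)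
    (hadj : ∀ z ∈ JextTop c0, ∃ m₀ m₁ : ℤ,
      z + m₀ • (Additive.ofMul (bcO c0 E0 r₁) : Atop p K c0) +
        m₁ • (Additive.ofMul (bcO c0 E0 r₂) : Atop p K c0) ∈ J0top c0 P00 hPP)
    -- (δ)
    (δ : Atop p K c0 →+ ℤ) (d : ℤ) (hd : d ≠ 0)
    (hδ₁ : δ (Additive.ofMul (bcO c0 E0 r₁)) = d) (hδ₂ : δ (Additive.ofMul (bcO c0 E0 r₂)) = d)
    -- (c)
    (n₀ : ℕ) (hn₀ : 0 < n₀)
    (hc : n₀ • ((Additive.ofMul (bcO c0 E0 r₁) : Atop p K c0) - Additive.ofMul (bcO c0 E0 r₂)) ∈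
      J0top c0 P00 hPP)
    -- (TORS)
    (htors : ∀ (E : NLevel p K), ∀ x ∈ P00 E, ∃ h : ℕ, 0 < h ∧ x ^ h ∈ J1Fam c0 E)
    -- (FORMAL')
    (r : ℕ) (hr : 1 < r)
    (hdiv : ∀ (E : NLevel p K), ∀ x ∈ J1Fam c0 E, ∃ x' ∈ J1Fam c0 E, x' ^ r = x)
    (hinj : ∀ (E : NLevel p K), ∀ x ∈ J1Fam c0 E, x ^ r = 1 → x = 1)
    -- (EXT-INJ)
    (hext : ∀ (E : NLevel p K), ∀ x ∈ P00 E, bcO c0 E x = 1 → x = 1)
    -- (DIV)
    (hJdiv : ∀ x : JZero N, ∃ y : JZero N, r • y = x)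
    -- (TORS-CMP)
    (hcmp : ∀ (k : ℕ) (a : Atop p K c0), r ^ k • a = 0 → ∃ t : JZero N, j t = a)
    -- (MW)
    (Q : AddSubgroup (JZero N)) (hfg : Q.FG) (hQ : ∀ y ∈ Q, ∀ g : Γℚ, g • y = y) :
    ∃ M₁ : ℕ, 0 < M₁ ∧ ∀ k : ℕ, ∀ y ∈ Q,
      ∃ z' : JZero N, r ^ k • z' = M₁ • y ∧
        ∀ s ∈ (padicPlace p).inertiaSubgroupIn ℚ, s • z' = z' := by
  letI := actTop c0 hK
  refine k3_local c0 hK P00 hPP hJP j hj hjres hjPt E0 r₁ r₂ ?_ δ d hd hδ₁ hδ₂ n₀ hn₀ hc htors r hr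
    hdiv hinj hext hJdiv hcmp Q hfg hQ
  intro y hyPt hyI
  obtain ⟨m₀, m₁, hm⟩ := hadj y (hphi y hyPt hyI)
  refine ⟨(-m₀) • (Additive.ofMul (bcO c0 E0 r₁) : Atop p K c0) +
      (-m₁) • (Additive.ofMul (bcO c0 E0 r₂) : Atop p K c0),
    (mem_CSub_pair c0 E0 r₁ r₂).2 ⟨-m₀, -m₁, rfl⟩, ?_⟩
  have e : y - ((-m₀) • (Additive.ofMul (bcO c0 E0 r₁) : Atop p K c0) +
      (-m₁) • (Additive.ofMul (bcO c0 E0 r₂) : Atop p K c0)) =
      y + m₀ • (Additive.ofMul (bcO c0 E0 r₁) : Atop p K c0) +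
        m₁ • (Additive.ofMul (bcO c0 E0 r₂) : Atop p K c0) := by
    rw [neg_smul, neg_smul]
    abel
  rw [e]
  exact hm

end Fermat.Agent.MAZ.K3Asm7
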