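/-
Programme MAZ (S15), brick K3-ASM (helper7): **LeafK3 AT LEVEL `p` FROM THE LOCAL BRICKS AT LEVEL `M`**
(`p ∣ M`, `M = 4p` in the application).

`leafK3_of_local` = `K3Asm7.k3_local_ext` (local argument + globalisation at level `M`, on the image
`Q = π^* J₀(p)(ℚ)` of the rational points of level `p`, finitely generated by S17 at the PRIME level `p`)
followed by helper44's level transfer `K3Level44.k3_transfer_image` (`π_* π^* = deg π`).
The conclusion is `Endgame88.LeafK3 p r` expanded (the (K3) conjunct of `hK` in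
`FinAbs19.SFin.eisenstein_fin_of_kummer`), with `Ap := padicPlace p`.
-/
import Mathlib
import Fermat.Agent.MAZ.K3Asm7.LocalExt
import Fermat.Agent.MAZ.K3Level44.Main

set_option autoImplicit false
set_option linter.unusedSectionVars false
set_option linter.unusedVariables false
set_option linter.style.haveILetI false
set_option synthInstance.maxHeartbeats 400000
set_option maxHeartbeats 1000000

open Fermat.Agent.TW.B5.Iface Fermat.Agent.RED.Interface4 Fermat.Agent.T1.HubInst98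
open Fermat.Agent.T1.IntSub47 Fermat.Agent.Jac Fermat.Agent.T1.RedIface75
open Fermat.Agent.T1B.Local66.LocalBase Fermat.Agent.T1B.Local66.Union
open Fermat.Agent.T1B.Local66.Objects
open Fermat.Agent.T1B.Plumb66.Inertia (Ip mem_Ip)
open Fermat.Agent.T1B.Bridge54.IpAction Fermat.Agent.T1B.Bridge54.IpInst
open Fermat.Agent.T1B.Bridge54.IpUnion
open Fermat.Agent.ES.P36.InertField27 (InertFixed)
open Fermat.Agent.ES.HECKE.LevelPullback12
open ModularCurve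

noncomputable section

namespace Fermat.Agent.MAZ.K3Asm7

local notation "Γℚ" => (AlgebraicClosure ℚ ≃ₐ[ℚ] AlgebraicClosure ℚ)

variable {p : ℕ} [Fact p.Prime] {K : IntermediateField ℚ Qbar}
  {B0 B1 B01 : Type} [CommRing B0] [CommRing B1] [CommRing B01]
  [Algebra (Wb p K) B0] [Algebra (Wb p K) B1] [Algebra (Wb p K) B01] [Algebra B0 B01]
  [Algebra B1 B01] [IsScalarTower (Wb p K) B0 B01] [IsScalarTower (Wb p K) B1 B01]
  (c0 : TwoChart (Wb p K) B0 B1 B01) [Nonempty (NLevel p K)]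

/-- **LeafK3 at level `p` from the local bricks at level `M`** (`p ∣ M`). -/
theorem leafK3_of_local [NeZero p] (hK : InertFixed (padicPlace p) K)
    (P00 : ∀ E : NLevel p K, Subgroup (PicO c0 E)) (hPP : Compatible c0 P00)
    (hJP : ∀ E, J1Fam c0 E ≤ P00 E)
    {M : ℕ} [NeZero M] (hpM : p ∣ M)
    -- (J-ALL)
    (j : JZero M →+ Atop p K c0) (hj : Function.Injective j)
    (hjres : letI := actTop c0 hK
      ∀ (τ : ↥(Ip p)) (x : JZero M), j (localGaloisToGlobal p (τ : Gp p) • x) = τ • j x)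
    (hjPt : ∀ x, j x ∈ PtTop c0)
    -- (Φ'')
    (hphi : letI := actTop c0 hK
      ∀ y ∈ PtTop c0, (∀ τ : ↥(Ip p), τ • y = y) → y ∈ JextTop c0)
    -- (ADJ)
    (E0 : NLevel p K) (r₁ r₂ : PicO c0 E0)
    (hadj : ∀ z ∈ JextTop c0, ∃ m₀ m₁ : ℤ,
      z + m₀ • (Additive.ofMul (bcO c0 E0 r₁) : Atop p K c0) +
        m₁ • (Additive.ofMul (bcO c0 E0 r₂) : Atop p K c0) ∈ J0top c0 P00 hPP)
    -- (δ)
    (δ : Atop p K c0 →+ ℤ) (d : ℤ) (hd : d ≠ 0)
    (hδ₁ : δ (Additive.ofMul (bcO c0 E0 r₁)) = d) (hδ₂ : δ (Additive.ofMul (bcO c0 E0 r₂)) = d)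
    -- (c)
    (n₀ : ℕ) (hn₀ : 0 < n₀)
    (hc : n₀ • ((Additive.ofMul (bcO c0 E0 r₁) : Atop p K c0) - Additive.ofMul (bcO c0 E0 r₂)) ∈
      J0top c0 P00 hPP)
    -- (TORS)
    (htors : ∀ (E : NLevel p K), ∀ x ∈ P00 E, ∃ h : ℕ, 0 < h ∧ x ^ h ∈ J1Fam c0 E)
    -- (FORMAL')
    (r : ℕ) (hr : 1 < r)
    (hdiv : ∀ (E : NLevel p K), ∀ x ∈ J1Fam c0 E, ∃ x' ∈ J1Fam c0 E, x' ^ r = x)
    (hinj : ∀ (E : NLevel p K), ∀ x ∈ J1Fam c0 E, x ^ r = 1 → x = 1)
    -- (EXT-INJ)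
    (hext : ∀ (E : NLevel p K), ∀ x ∈ P00 E, bcO c0 E x = 1 → x = 1)
    -- (DIV)
    (hJdiv : ∀ x : JZero M, ∃ y : JZero M, r • y = x)
    -- (TORS-CMP)
    (hcmp : ∀ (k : ℕ) (a : Atop p K c0), r ^ k • a = 0 → ∃ t : JZero M, j t = a)
    -- (MW) at the prime level `p`
    (hS17 : AddGroup.FG ↥(FixedPoints.addSubgroup Γℚ (JZero p))) :
    ∃ Ap : ValuationSubring (AlgebraicClosure ℚ), Ap.LiesOverPrime p ∧ ∃ M₁ : ℕ, 0 < M₁ ∧
      ∀ k : ℕ, ∀ x ∈ FixedPoints.addSubgroup Γℚ (JZero p),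
        ∃ z' : JZero p, r ^ k • z' = M₁ • x ∧ ∀ s ∈ Ap.inertiaSubgroupIn ℚ, s • z' = z' := by
  obtain ⟨hQfg, hQfix⟩ := image_fg_fixed (levelPullback hpM)
    (fun g x => Fermat.Agent.ES.RED.PullbackInj12.levelPullback_smul hpM g x) hS17
  obtain ⟨M₀, hM₀, hk⟩ := k3_local_ext c0 hK P00 hPP hJP j hj hjres hjPt hphi E0 r₁ r₂ hadj δ d hd
    hδ₁ hδ₂ n₀ hn₀ hc htors r hr hdiv hinj hext hJdiv hcmp
    ((FixedPoints.addSubgroup Γℚ (JZero p)).map (levelPullback hpM)) hQfg hQfix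
  refine ⟨padicPlace p, Fermat.Agent.T1.LocModel46.liesOverPrime p,
    Fermat.Agent.MAZ.K3Level44.levelDeg hpM * M₀,
    Nat.mul_pos (Fermat.Agent.MAZ.K3Level44.levelDeg_pos hpM) hM₀, ?_⟩
  exact Fermat.Agent.MAZ.K3Level44.k3_transfer_image hpM r
    ((padicPlace p).inertiaSubgroupIn ℚ : Set Γℚ) M₀
    (fun k x hx => hk k _ (AddSubgroup.mem_map_of_mem _ hx))

end Fermat.Agent.MAZ.K3Asm7
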