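/-
Programme MAZ (S15), brick K3-ASM (helper7): `leafK3_of_local` WITH THE DEGREE PLUGGED IN.

`r₁ r₂ : PicO c0 E0` are classes of `O_{E0}`-points (`PtLine75.IsPtClass`), the generic fibre `X_{ℚ̄_p}` is
an integral two-chart curve (charts domains, finite projective over the line): then
`δ := K3Asm7.degTop`, `d := -1`, and the hypothesis (δ) of `leafK3_of_local` disappears.
-/
import Mathlib
import Fermat.Agent.MAZ.K3Asm7.Final
import Fermat.Agent.MAZ.K3Asm7.Degree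

set_option autoImplicit false
set_option linter.unusedSectionVars false
set_option linter.unusedVariables false
set_option linter.style.haveILetI false
set_option synthInstance.maxHeartbeats 400000
set_option maxHeartbeats 1000000

open TensorProduct
open Fermat.Agent.TW.B5.Iface Fermat.Agent.RED.Interface4 Fermat.Agent.T1.HubInst98
open Fermat.Agent.T1.IntSub47 Fermat.Agent.Jac Fermat.Agent.T1.RedIface75
open Fermat.Agent.T1.PtLine75
open Fermat.Agent.T1B.Local66.LocalBase Fermat.Agent.T1B.Local66.Union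
open Fermat.Agent.T1B.Local66.Objects
open Fermat.Agent.T1B.Plumb66.Inertia (Ip mem_Ip)
open Fermat.Agent.T1B.Bridge54.IpAction Fermat.Agent.T1B.Bridge54.IpInst
open Fermat.Agent.T1B.Bridge54.IpUnion
open Fermat.Agent.ES.P36.InertField27 (InertFixed)
open ModularCurve
open Fermat.Agent.Jac.BaseChange75
open scoped Fermat.Agent.Jac.BaseChange75

noncomputable section

namespace Fermat.Agent.MAZ.K3Asm7

local notation "Γℚ" => (AlgebraicClosure ℚ ≃ₐ[ℚ] AlgebraicClosure ℚ)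

variable {p : ℕ} [Fact p.Prime] {K : IntermediateField ℚ Qbar}
  {B0 B1 B01 : Type} [CommRing B0] [CommRing B1] [CommRing B01]
  [Algebra (Wb p K) B0] [Algebra (Wb p K) B1] [Algebra (Wb p K) B01] [Algebra B0 B01]
  [Algebra B1 B01] [IsScalarTower (Wb p K) B0 B01] [IsScalarTower (Wb p K) B1 B01]
  (c0 : TwoChart (Wb p K) B0 B1 B01) [Nonempty (NLevel p K)]

/-- **LeafK3 at level `p` from the local bricks at level `M`**, the two classes `r₁ r₂` being classes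
of `O_{E0}`-points. -/
theorem leafK3_of_local_pt [NeZero p] (hK : InertFixed (padicPlace p) K)
    (P00 : ∀ E : NLevel p K, Subgroup (PicO c0 E)) (hPP : Compatible c0 P00)
    (hJP : ∀ E, J1Fam c0 E ≤ P00 E)
    {M : ℕ} [NeZero M] (hpM : p ∣ M)
    -- (GENERIC FIBRE) `X_{ℚ̄_p}` is an integral two-chart curve
    (hd0 : letI := algWKbar p K; IsDomain (Kbar p ⊗[Wb p K] B0))
    (hd1 : letI := algWKbar p K; IsDomain (Kbar p ⊗[Wb p K] B1))
    (hnt : letI := algWKbar p K; Nontrivial (Kbar p ⊗[Wb p K] B01))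
    (hfpl : letI := algWKbar p K; (c0.baseChange (Kbar p)).FiniteProjOverLine)
    -- (J-ALL)
    (j : JZero M →+ Atop p K c0) (hj : Function.Injective j)
    (hjres : letI := actTop c0 hK
      ∀ (τ : ↥(Ip p)) (x : JZero M), j (localGaloisToGlobal p (τ : Gp p) • x) = τ • j x)
    (hjPt : ∀ x, j x ∈ PtTop c0)
    -- (Φ'')
    (hphi : letI := actTop c0 hK
      ∀ y ∈ PtTop c0, (∀ τ : ↥(Ip p), τ • y = y) → y ∈ JextTop c0)
    -- (ADJ), for two classes of `O_{E0}`-points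
    (E0 : NLevel p K) (r₁ r₂ : PicO c0 E0)
    (hr₁ : letI := algWO E0.lev; IsPtClass c0 ↥(intSubring p E0.E) r₁)
    (hr₂ : letI := algWO E0.lev; IsPtClass c0 ↥(intSubring p E0.E) r₂)
    (hadj : ∀ z ∈ JextTop c0, ∃ m₀ m₁ : ℤ,
      z + m₀ • (Additive.ofMul (bcO c0 E0 r₁) : Atop p K c0) +
        m₁ • (Additive.ofMul (bcO c0 E0 r₂) : Atop p K c0) ∈ J0top c0 P00 hPP)
    -- (c)
    (n₀ : ℕ) (hn₀ : 0 < n₀)
    (hc : n₀ • ((Additive.ofMul (bcO c0 E0 r₁) : Atop p K c0) - Additive.ofMul (bcO c0 E0 r₂)) ∈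
      J0top c0 P00 hPP)
    -- (TORS)
    (htors : ∀ (E : NLevel p K), ∀ x ∈ P00 E, ∃ h : ℕ, 0 < h ∧ x ^ h ∈ J1Fam c0 E)
    -- (FORMAL')
    (r : ℕ) (hr : 1 < r)
    (hdiv : ∀ (E : NLevel p K), ∀ x ∈ J1Fam c0 E, ∃ x' ∈ J1Fam c0 E, x' ^ r = x)
    (hinj : ∀ (E : NLevel p K), ∀ x ∈ J1Fam c0 E, x ^ r = 1 → x = 1)
    -- (EXT-INJ)
    (hext : ∀ (E : NLevel p K), ∀ x ∈ P00 E, bcO c0 E x = 1 → x = 1)
    -- (DIV)
    (hJdiv : ∀ x : JZero M, ∃ y : JZero M, r • y = x)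
    -- (TORS-CMP)
    (hcmp : ∀ (k : ℕ) (a : Atop p K c0), r ^ k • a = 0 → ∃ t : JZero M, j t = a)
    -- (MW) at the prime level `p`
    (hS17 : AddGroup.FG ↥(FixedPoints.addSubgroup Γℚ (JZero p))) :
    ∃ Ap : ValuationSubring (AlgebraicClosure ℚ), Ap.LiesOverPrime p ∧ ∃ M₁ : ℕ, 0 < M₁ ∧
      ∀ k : ℕ, ∀ x ∈ FixedPoints.addSubgroup Γℚ (JZero p),
        ∃ z' : JZero p, r ^ k • z' = M₁ • x ∧ ∀ s ∈ Ap.inertiaSubgroupIn ℚ, s • z' = z' :=
  leafK3_of_local c0 hK P00 hPP hJP hpM j hj hjres hjPt hphi E0 r₁ r₂ hadj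
    (degTop c0 hd0 hd1 hnt hfpl) (-1) (by norm_num)
    (degTop_bcO_of_isPtClass c0 hd0 hd1 hnt hfpl E0 r₁ hr₁)
    (degTop_bcO_of_isPtClass c0 hd0 hd1 hnt hfpl E0 r₂ hr₂)
    n₀ hn₀ hc htors r hr hdiv hinj hext hJdiv hcmp hS17

end Fermat.Agent.MAZ.K3Asm7
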