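/-
Programme MAZ (S15), brick K3-ASM (helper7): THE CLASS OF `O(m)` (pull-back of `O(m)` from the
`t`-line) ON A TWO-CHART CURVE, AND ITS DEGREE.

The point: a class on `X_{O_E}` whose generic fibre has NONZERO DEGREE, available WITHOUT ANY SECTION
of the model (no `O_E`-point is needed).  It replaces the two point classes `r₁ r₂` of
`K3Asm7.leafK3_of_local_pt` (see `K3Asm7/NoSection.lean`).

* `twCls c m : LinePic c`            : the class of `O(m) = QC2.unit.twist c m`;
* `bc_twCls`                         : `LinePic.bc (twCls c m) = twCls c' m` along a cube with `t ↦ t`;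
* `not_isUnit_s`                     : on a two-chart curve over a field, finite projective over the
                                       line, with `R1 ≠ 0`, the coordinate `s = t⁻¹` is not a unit of `R1`;
* `degInf_pos`                       : hence `0 < degInf c = dim_K R1 / s R1`;
* `degHom_twCls`                     : `deg O(m) = m * degInf c` on an integral two-chart curve;
* `degHom_twCls_ne_one`              : `≠ 0` for `m ≠ 0`;
* `Mdeg_twCls`                       : the multidegree of `O(m)` on a nodal model.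
-/
import Mathlib
import Fermat.Agent.Jac.Translate14.TwistOps
import Fermat.Agent.Jac.Cover12.FieldCover
import Fermat.Agent.T1B.Bal60.Mdeg
import Fermat.Agent.T1.RedIface75

set_option autoImplicit false
set_option linter.unusedSectionVars false
set_option linter.unusedVariables false
set_option linter.style.haveILetI false

universe u

open TensorProduct Polynomial

noncomputable section

namespace Fermat.Agent.MAZ.K3Asm7

open Fermat.Agent.Jac Fermat.Agent.Jac.LineOps39 Fermat.Agent.Jac.JSmooth85Alg
  Fermat.Agent.Jac.JGroup85Pic Fermat.Agent.Jac.P1CohChi Fermat.Agent.T1B.Bal60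
  Fermat.Agent.Jac.Cover12.FieldCover

section Def

variable {A R0 R1 R01 : Type u} [CommRing A] [CommRing R0] [CommRing R1] [CommRing R01]
  [Algebra A R0] [Algebra A R1] [Algebra A R01] [Algebra R0 R01] [Algebra R1 R01]
  [IsScalarTower A R0 R01] [IsScalarTower A R1 R01]
  (c : TwoChart A R0 R1 R01)

/-- **The class of `O(m)`**: the structure sheaf twisted `m` times at `t = ∞`. -/
def twCls (m : ℤ) : LinePic c :=
  LinePic.mk c ((QC2.unit : QC2 A R0 R1 R01).twist c m)
    (Translate14.isLine_twist c isLine_unit m)

theorem twCls_def (m : ℤ) :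
    twCls c m = LinePic.mk c ((QC2.unit : QC2 A R0 R1 R01).twist c m)
      (Translate14.isLine_twist c isLine_unit m) := rfl

end Def

section Cube

variable {A R0 R1 R01 A' R0' R1' R01' : Type u}
  [CommRing A] [CommRing R0] [CommRing R1] [CommRing R01]
  [Algebra A R0] [Algebra A R1] [Algebra A R01] [Algebra R0 R01] [Algebra R1 R01]
  [IsScalarTower A R0 R01] [IsScalarTower A R1 R01]
  [CommRing A'] [CommRing R0'] [CommRing R1'] [CommRing R01']
  [Algebra A' R0'] [Algebra A' R1'] [Algebra A' R01'] [Algebra R0' R01'] [Algebra R1' R01']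
  [IsScalarTower A' R0' R01'] [IsScalarTower A' R1' R01']
  [Algebra R0 R0'] [Algebra R1 R1'] [Algebra R01 R01']
  (hc0 : (algebraMap R0' R01').comp (algebraMap R0 R0') =
    (algebraMap R01 R01').comp (algebraMap R0 R01))
  (hc1 : (algebraMap R1' R01').comp (algebraMap R1 R1') =
    (algebraMap R01 R01').comp (algebraMap R1 R01))
  (c : TwoChart A R0 R1 R01) (c' : TwoChart A' R0' R1' R01')

/-- **`O(m)` commutes with base change** along a cube of rings which maps `t` to `t`. -/
theorem bc_twCls (ht : algebraMap R0 R0' c.t = c'.t) (m : ℤ) :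
    LinePic.bc hc0 hc1 c c' (twCls c m) = twCls c' m := by
  rw [twCls_def, LinePic.bc_mk hc0 hc1 c c' _
    (Translate14.liftDataTwist hc0 c c' ht (liftDataUnit hc0 hc1) m)]
  rfl

end Cube

section Field

variable {K C0 C1 C01 : Type u} [Field K] [CommRing C0] [CommRing C1] [CommRing C01]
  [Algebra K C0] [Algebra K C1] [Algebra K C01] [Algebra C0 C01] [Algebra C1 C01]
  [IsScalarTower K C0 C01] [IsScalarTower K C1 C01]
  (c' : TwoChart K C0 C1 C01)

/-- On a two-chart curve over a field, finite projective over the line, the coordinate `s` at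
infinity is not a unit of the (nonzero) chart `C1`. -/
theorem not_isUnit_s [Nontrivial C1] (hc' : c'.FiniteProjOverLine) : ¬ IsUnit c'.s := by
  intro hu
  haveI := hc'.fin1
  haveI := hc'.proj1
  obtain ⟨u, hu⟩ := hu.exists_right_inv
  -- `M = X • M` for `M = C1` over `K[X]`
  have htop : (⊤ : Submodule K[X] (Module.AEval K C1 c'.s)) ≤
      (Ideal.span {(X : K[X])}) • (⊤ : Submodule K[X] (Module.AEval K C1 c'.s)) := by
    intro x _
    have hx : x = (X : K[X]) • (Module.AEval.of K C1 c'.s (u * (Module.AEval.of K C1 c'.s).symm x)) := by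
      rw [← Module.AEval.of_aeval_smul, aeval_X, smul_eq_mul, ← mul_assoc, hu, one_mul,
        LinearEquiv.apply_symm_apply]
    rw [hx]
    exact Submodule.smul_mem_smul (Ideal.subset_span rfl) Submodule.mem_top
  obtain ⟨r, hr1, hr0⟩ := Submodule.exists_sub_one_mem_and_smul_eq_zero_of_fg_of_le_smul
    (Ideal.span {(X : K[X])}) (⊤ : Submodule K[X] (Module.AEval K C1 c'.s))
    (Module.finite_def.1 inferInstance) htop
  have hrne : r ≠ 0 := by
    rintro rfl
    rw [zero_sub, Ideal.neg_mem_iff, Ideal.mem_span_singleton, X_dvd_iff] at hr1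
    simp at hr1
  have hreg : IsSMulRegular (Module.AEval K C1 c'.s) r :=
    Module.Flat.isSMulRegular_of_nonZeroDivisors (mem_nonZeroDivisors_of_ne_zero hrne)
  have h1 : r • (Module.AEval.of K C1 c'.s (1 : C1)) = r • (0 : Module.AEval K C1 c'.s) := by
    rw [smul_zero]
    exact hr0 _ Submodule.mem_top
  have h2 := hreg h1
  have h3 : (1 : C1) = 0 := by
    have := congrArg (Module.AEval.of K C1 c'.s).symm h2
    simp at this
  exact one_ne_zero h3

/-- **The divisor at infinity has positive degree.** -/
theorem degInf_pos [Nontrivial C1] (hc' : c'.FiniteProjOverLine) : 0 < degInf c' := by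
  haveI : Module.Finite K (LineRank.UInf c') := LineRank.finite_UInf c' hc'
  have hnt : Nontrivial (LineRank.UInf c') := by
    have e := LineRank.quotSpanEquiv (A := K) (R := C1) (c'.s ^ 1)
    have hne : (Ideal.span {c'.s ^ 1} : Ideal C1) ≠ ⊤ := by
      rw [Ne, Ideal.span_singleton_eq_top, pow_one]
      exact not_isUnit_s c' hc'
    haveI : Nontrivial (C1 ⧸ (Ideal.span {c'.s ^ 1} : Ideal C1)) :=
      Ideal.Quotient.nontrivial_iff.2 hne
    exact e.toEquiv.nontrivial
  unfold degInf
  exact Module.finrank_pos

variable [IsDomain C0] [IsDomain C1] [Nontrivial C01]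

/-- **`deg O(m) = m · deg(∞)`** on an integral two-chart curve over a field. -/
theorem degHom_twCls (hc' : c'.FiniteProjOverLine) (m : ℤ) :
    degHom c' hc' (twCls c' m) = Multiplicative.ofAdd (m * (degInf c' : ℤ)) := by
  rw [twCls_def, degHom_mk]
  congr 1
  unfold lineDeg
  rw [← chiK_eq_chiField, ← chiK_eq_chiField, chiK_twist c' hc' isLine_unit m]
  ring

/-- `O(m)` has nonzero degree for `m ≠ 0`. -/
theorem degHom_twCls_ne_one (hc' : c'.FiniteProjOverLine) {m : ℤ} (hm : m ≠ 0) :
    degHom c' hc' (twCls c' m) ≠ 1 := by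
  rw [degHom_twCls c' hc' m]
  intro h
  have h1 : m * (degInf c' : ℤ) = 0 := congrArg Multiplicative.toAdd h
  rcases mul_eq_zero.1 h1 with h2 | h2
  · exact hm h2
  · have := degInf_pos c' hc'
    omega

end Field

section Mdeg

variable {A R0 R1 R01 : Type u} [CommRing A] [CommRing R0] [CommRing R1] [CommRing R01]
  [Algebra A R0] [Algebra A R1] [Algebra A R01] [Algebra R0 R01] [Algebra R1 R01]
  [IsScalarTower A R0 R01] [IsScalarTower A R1 R01]
  {c : TwoChart A R0 R1 R01} {p : A} {ι : Type} (hg : Fermat.Agent.T1B.RedN3.NodalGood c p ι)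
  {K : Type u} [Field K] (X : ∀ i, Comp c (hg.P0 i) (hg.P1 i) K)

/-- **The multidegree of `O(m)`** on a nodal model whose components carry the coordinate `t`. -/
theorem Mdeg_twCls (i : ι) (ht : algebraMap R0 (X i).C0 c.t = (X i).chart.t) (m : ℤ) :
    Mdeg hg X (twCls c m) i = Multiplicative.ofAdd (m * (degInf (X i).chart : ℤ)) := by
  rw [Mdeg_apply]
  unfold Comp.res
  rw [bc_twCls (X i).hc0 (X i).hc1 c (X i).chart ht m, degHom_twCls]

end Mdeg

section Hub

open Fermat.Agent.T1.RedIface75 Fermat.Agent.Jac.BaseChange75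
open scoped Fermat.Agent.Jac.BaseChange75

variable {W B0 B1 B01 : Type u} [CommRing W] [CommRing B0] [CommRing B1] [CommRing B01]
  [Algebra W B0] [Algebra W B1] [Algebra W B01] [Algebra B0 B01] [Algebra B1 B01]
  [IsScalarTower W B0 B01] [IsScalarTower W B1 B01]
  (c0 : TwoChart W B0 B1 B01)
  (A A' : Type u) [CommRing A] [CommRing A'] [Algebra W A] [Algebra W A'] [Algebra A A']
  [IsScalarTower W A A']

/-- **`O(m)` commutes with the base changes of the hub.** -/
theorem map_twCls (m : ℤ) :
    PicX.map c0 A A' (twCls (c0.baseChange A) m) = twCls (c0.baseChange A') m :=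
  bc_twCls (square_comm W A A' B0 B01) (square_comm W A A' B1 B01) (c0.baseChange A)
    (c0.baseChange A') (algebraMap_baseChange_t c0 A A') m

end Hub

end Fermat.Agent.MAZ.K3Asm7
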