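/-
Programme MAZ (S15), brick K3-ASM (helper7): **(K3) WITHOUT ANY SECTION OF THE MODEL.**

`K3Asm7.leafK3_of_local_pt` needs two classes `r₁ r₂` of `O_{E0}`-points reducing to smooth points of
the two components of the special fibre (with invertible ideals), the adjustment (ADJ) by these
classes and `n₀ • (ρ₁ - ρ₂) ∈ J⁰`.  Constructing such SECTIONS of the nodal model is expensive.
Here they are replaced by:

* (MD)  a multidegree family `md E : Pic X_{O_E} →* (Fin 2 → Multiplicative ℤ)` with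
        `P00 E = ker (md E)`, compatible with the base changes `bcOO` (`Bal60.Mdeg`, `Bal60.Mdeg_map`);
* (T)   ONE vertical twist `T ∈ Pic X_{O_{E0}}`, trivial on the generic fibre, of multidegree
        `(ν, -ν)`, `ν > 0`  (helper20's `CuspJ0_20.Hub.exists_twist`);
* the class of `O(-1)` (`K3Asm7.twCls`), which extends to every level and has NONZERO degree on the
  generic fibre (`degHom_twCls_ne_one`): NO hypothesis.

ARGUMENT (`cusp_of_twist`).  `δ : A →+ ℤ` a homomorphism killing `J⁰` (automatic for every `δ`, by the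
degree trick: `J¹` is `r`-divisible and `J⁰ / J¹` is torsion), `z₀ ∈ Jext` with `δ z₀ ≠ 0`.  Let
`z ∈ Jext` with `δ z = 0`, `z = x_K`, `z₀ = λ_K` with `x, λ ∈ Pic X_{O_E}`, `md x = (a, b)`,
`md λ = (a₀, a₁)`, `s = a₀ + a₁`.
(1) `s ≠ 0`: otherwise `λ^ν T^{-a₀} ∈ P00`, so `ν z₀ ∈ J⁰` and `ν δ z₀ = 0`.
(2) `y = x^s λ^{-(a+b)}` has total multidegree `0`, so `y^ν T^{-c} ∈ P00`, `ν (s z - (a+b) z₀) ∈ J⁰`,
    and applying `δ`: `(a + b) δ z₀ = 0`, i.e. `a + b = 0`.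
(3) hence `x^ν T^{-a} ∈ P00` and `ν z ∈ J⁰`.
-/
import Mathlib
import Fermat.Agent.MAZ.K3Asm7.Final
import Fermat.Agent.MAZ.K3Asm7.Degree
import Fermat.Agent.MAZ.K3Asm7.TwistClass

set_option autoImplicit false
set_option linter.unusedSectionVars false
set_option linter.unusedVariables false
set_option linter.style.haveILetI false
set_option synthInstance.maxHeartbeats 400000
set_option maxHeartbeats 1000000

open TensorProduct
open Fermat.Agent.TW.B5.Iface Fermat.Agent.RED.Interface4 Fermat.Agent.T1.HubInst98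
open Fermat.Agent.T1.IntSub47 Fermat.Agent.Jac Fermat.Agent.T1.RedIface75
open Fermat.Agent.T1B.Local66.LocalBase Fermat.Agent.T1B.Local66.Union
open Fermat.Agent.T1B.Local66.Objects
open Fermat.Agent.T1B.Plumb66.Inertia (Ip mem_Ip)
open Fermat.Agent.T1B.Bridge54.IpAction Fermat.Agent.T1B.Bridge54.IpInst
open Fermat.Agent.T1B.Bridge54.IpUnion
open Fermat.Agent.ES.P36.InertField27 (InertFixed)
open Fermat.Agent.ES.HECKE.LevelPullback12
open ModularCurve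
open Fermat.Agent.Jac.BaseChange75
open scoped Fermat.Agent.Jac.BaseChange75

noncomputable section

namespace Fermat.Agent.MAZ.K3Asm7

local notation "Γℚ" => (AlgebraicClosure ℚ ≃ₐ[ℚ] AlgebraicClosure ℚ)

variable {p : ℕ} [Fact p.Prime] {K : IntermediateField ℚ Qbar}
  {B0 B1 B01 : Type} [CommRing B0] [CommRing B1] [CommRing B01]
  [Algebra (Wb p K) B0] [Algebra (Wb p K) B1] [Algebra (Wb p K) B01] [Algebra B0 B01]
  [Algebra B1 B01] [IsScalarTower (Wb p K) B0 B01] [IsScalarTower (Wb p K) B1 B01]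
  (c0 : TwoChart (Wb p K) B0 B1 B01) [Nonempty (NLevel p K)]

/-! ### The multidegree, integer valued -/

section Md

variable (md : ∀ E : NLevel p K, PicO c0 E →* (Fin 2 → Multiplicative ℤ))

/-- The integer-valued multidegree. -/
def mdZ (E : NLevel p K) (x : PicO c0 E) (i : Fin 2) : ℤ := Multiplicative.toAdd (md E x i)

theorem mdZ_mul (E : NLevel p K) (x y : PicO c0 E) (i : Fin 2) :
    mdZ c0 md E (x * y) i = mdZ c0 md E x i + mdZ c0 md E y i := by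
  unfold mdZ
  rw [map_mul, Pi.mul_apply, toAdd_mul]

theorem mdZ_pow (E : NLevel p K) (x : PicO c0 E) (n : ℕ) (i : Fin 2) :
    mdZ c0 md E (x ^ n) i = n * mdZ c0 md E x i := by
  unfold mdZ
  rw [map_pow, Pi.pow_apply, toAdd_pow, nsmul_eq_mul]

theorem mdZ_zpow (E : NLevel p K) (x : PicO c0 E) (n : ℤ) (i : Fin 2) :
    mdZ c0 md E (x ^ n) i = n * mdZ c0 md E x i := by
  unfold mdZ
  rw [map_zpow, Pi.pow_apply, toAdd_zpow, smul_eq_mul]

theorem mem_ker_iff_mdZ (E : NLevel p K) (x : PicO c0 E) :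
    x ∈ (md E).ker ↔ mdZ c0 md E x 0 = 0 ∧ mdZ c0 md E x 1 = 0 := by
  rw [MonoidHom.mem_ker]
  unfold mdZ
  constructor
  · intro h
    rw [h]
    exact ⟨rfl, rfl⟩
  · rintro ⟨h0, h1⟩
    funext i
    revert i
    rw [Fin.forall_fin_two]
    exact ⟨Multiplicative.toAdd.injective h0, Multiplicative.toAdd.injective h1⟩

end Md

/-! ### (CUSP'') from one vertical twist and one class of nonzero degree -/

section Cusp

variable (P00 : ∀ E : NLevel p K, Subgroup (PicO c0 E)) (hPP : Compatible c0 P00)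
  (md : ∀ E : NLevel p K, PicO c0 E →* (Fin 2 → Multiplicative ℤ))
  (hmdker : ∀ E, P00 E = (md E).ker)
  (hmdmap : ∀ (E E' : NLevel p K) (h : E ≤ E') (x : PicO c0 E) (i : Fin 2),
    md E' (bcOO c0 h x) i = md E x i)
  (E0 : NLevel p K) (T : PicO c0 E0) (hT : bcO c0 E0 T = 1) (ν : ℕ)
  (hT0 : md E0 T 0 = Multiplicative.ofAdd (ν : ℤ))
  (hT1 : md E0 T 1 = Multiplicative.ofAdd (-(ν : ℤ)))

include hmdker hmdmap hT hT0 hT1 in
/-- **A class of total multidegree `0` has its `ν`-th multiple in `J⁰`.** -/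
theorem nsmul_mem_J0top_of_total_zero (E : NLevel p K) (h : E0 ≤ E) (x : PicO c0 E)
    (hx : mdZ c0 md E x 0 + mdZ c0 md E x 1 = 0) :
    ν • (Additive.ofMul (bcO c0 E x) : Atop p K c0) ∈ J0top c0 P00 hPP := by
  have hTE0 : mdZ c0 md E (bcOO c0 h T) 0 = ν := by
    unfold mdZ
    rw [hmdmap E0 E h T 0, hT0]
    rfl
  have hTE1 : mdZ c0 md E (bcOO c0 h T) 1 = -(ν : ℤ) := by
    unfold mdZ
    rw [hmdmap E0 E h T 1, hT1]
    rfl
  have hw : x ^ ν * (bcOO c0 h T) ^ (-(mdZ c0 md E x 0)) ∈ P00 E := by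
    rw [hmdker E, mem_ker_iff_mdZ]
    refine ⟨?_, ?_⟩
    · rw [mdZ_mul, mdZ_pow, mdZ_zpow, hTE0]
      ring
    · rw [mdZ_mul, mdZ_pow, mdZ_zpow, hTE1]
      have : mdZ c0 md E x 1 = -(mdZ c0 md E x 0) := by linarith
      rw [this]
      ring
  refine (mem_J0top c0 P00 hPP).2 ⟨E, _, hw, ?_⟩
  rw [map_mul, map_pow, map_zpow, bcO_bcOO, hT, one_zpow, mul_one, ofMul_pow]

include hmdker hmdmap hT hT0 hT1 in
/-- **(CUSP'') without sections.**  `δ` ANY homomorphism killing `J⁰`, `z₀ ∈ Jext` of nonzero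
`δ`-degree: every `z ∈ Jext` of `δ`-degree `0` has `ν • z ∈ J⁰`. -/
theorem cusp_of_twist (hν : 0 < ν)
    (δ : Atop p K c0 →+ ℤ) (hδJ0 : ∀ x ∈ J0top c0 P00 hPP, δ x = 0)
    (z₀ : Atop p K c0) (hz₀ : z₀ ∈ JextTop c0) (hδz₀ : δ z₀ ≠ 0) :
    ∀ z ∈ JextTop c0, δ z = 0 → ν • z ∈ J0top c0 P00 hPP := by
  intro z hz hδz
  have hνZ : (ν : ℤ) ≠ 0 := by exact_mod_cast hν.ne'
  -- common level
  obtain ⟨E1, h01, lam, -, hlam⟩ := exists_ge_of_mem_unionSub c0 hz₀ E0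
  obtain ⟨E, h1E, x, -, hx⟩ := exists_ge_of_mem_unionSub c0 hz E1
  have h0E : E0 ≤ E := NLevel.le_trans h01 h1E
  have hlam' : (Additive.ofMul (bcO c0 E (bcOO c0 h1E lam)) : Atop p K c0) = z₀ := by
    rw [bcO_bcOO]
    exact hlam
  set l : PicO c0 E := bcOO c0 h1E lam with hl
  set a := mdZ c0 md E x 0 with ha
  set b := mdZ c0 md E x 1 with hb
  set a₀ := mdZ c0 md E l 0 with ha₀
  set a₁ := mdZ c0 md E l 1 with ha₁
  have key := nsmul_mem_J0top_of_total_zero c0 P00 hPP md hmdker hmdmap E0 T hT ν hT0 hT1 E h0E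
  -- (1) `s ≠ 0`
  have hs : a₀ + a₁ ≠ 0 := by
    intro hs
    have h1 := hδJ0 _ (key l hs)
    rw [hlam', map_nsmul, nsmul_eq_mul] at h1
    rcases mul_eq_zero.1 h1 with h2 | h2
    · exact hνZ (by exact_mod_cast h2)
    · exact hδz₀ h2
  -- (2) `a + b = 0`
  have hab : a + b = 0 := by
    have hy : mdZ c0 md E (x ^ (a₀ + a₁) * l ^ (-(a + b))) 0 +
        mdZ c0 md E (x ^ (a₀ + a₁) * l ^ (-(a + b))) 1 = 0 := by
      rw [mdZ_mul, mdZ_mul, mdZ_zpow, mdZ_zpow, mdZ_zpow, mdZ_zpow]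
      ring
    have h1 := hδJ0 _ (key _ hy)
    have e : (Additive.ofMul (bcO c0 E (x ^ (a₀ + a₁) * l ^ (-(a + b)))) : Atop p K c0) =
        (a₀ + a₁) • z + (-(a + b)) • z₀ := by
      rw [map_mul, map_zpow, map_zpow, ofMul_mul, ofMul_zpow, ofMul_zpow, hx, hlam']
    rw [e, map_nsmul, map_add, map_zsmul, map_zsmul, hδz, smul_zero, zero_add, nsmul_eq_mul,
      smul_eq_mul] at h1
    rcases mul_eq_zero.1 h1 with h2 | h2
    · exact absurd (by exact_mod_cast h2) hνZ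
    · rcases mul_eq_zero.1 h2 with h3 | h3
      · linarith
      · exact absurd h3 hδz₀
  -- (3)
  have h3 := key x hab
  rw [hx] at h3
  exact h3

end Cusp

/-! ### `δ` kills `J⁰`: the degree trick -/

/-- A homomorphism to `ℤ` kills `J0` as soon as `J1` is `r`-divisible and `J0 / J1` is torsion. -/
theorem hom_eq_zero_of_tors_div {B : Type*} [AddCommGroup B] (δ : B →+ ℤ) {r : ℕ} (hr : 1 < r)
    (J0 J1 : AddSubgroup B) (hdiv : ∀ x ∈ J1, ∃ x' ∈ J1, r • x' = x)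
    (htors : ∀ x ∈ J0, ∃ h : ℕ, 0 < h ∧ h • x ∈ J1) : ∀ x ∈ J0, δ x = 0 := by
  have hδJ1 : ∀ x ∈ J1, δ x = 0 := hom_eq_zero_of_divisible δ hr J1 hdiv
  intro x hx
  obtain ⟨h, hh, hhx⟩ := htors x hx
  have h1 := hδJ1 _ hhx
  rw [map_nsmul, nsmul_eq_mul] at h1
  rcases mul_eq_zero.1 h1 with h2 | h2
  · exact absurd (by exact_mod_cast h2) hh.ne'
  · exact h2

/-! ### (K3) at level `N`, section-free -/

/-- **(K3) at level `N` from the local bricks, section-free form** (`C := JextTop`). -/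
theorem k3_local_tw (hK : InertFixed (padicPlace p) K)
    (P00 : ∀ E : NLevel p K, Subgroup (PicO c0 E)) (hPP : Compatible c0 P00)
    (hJP : ∀ E, J1Fam c0 E ≤ P00 E)
    {N : ℕ} [NeZero N]
    -- (J-ALL)
    (j : JZero N →+ Atop p K c0) (hj : Function.Injective j)
    (hjres : letI := actTop c0 hK
      ∀ (τ : ↥(Ip p)) (x : JZero N), j (localGaloisToGlobal p (τ : Gp p) • x) = τ • j x)
    (hjPt : ∀ x, j x ∈ PtTop c0)
    -- (Φ'')
    (hphi : letI := actTop c0 hK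
      ∀ y ∈ PtTop c0, (∀ τ : ↥(Ip p), τ • y = y) → y ∈ JextTop c0)
    -- (MD)
    (md : ∀ E : NLevel p K, PicO c0 E →* (Fin 2 → Multiplicative ℤ))
    (hmdker : ∀ E, P00 E = (md E).ker)
    (hmdmap : ∀ (E E' : NLevel p K) (h : E ≤ E') (x : PicO c0 E) (i : Fin 2),
      md E' (bcOO c0 h x) i = md E x i)
    -- (T)
    (E0 : NLevel p K) (T : PicO c0 E0) (hT : bcO c0 E0 T = 1) (ν : ℕ) (hν : 0 < ν)
    (hT0 : md E0 T 0 = Multiplicative.ofAdd (ν : ℤ))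
    (hT1 : md E0 T 1 = Multiplicative.ofAdd (-(ν : ℤ)))
    -- (Z0)
    (δ : Atop p K c0 →+ ℤ) (z₀ : Atop p K c0) (hz₀ : z₀ ∈ JextTop c0) (hδz₀ : δ z₀ ≠ 0)
    -- (TORS)
    (htors : ∀ (E : NLevel p K), ∀ x ∈ P00 E, ∃ h : ℕ, 0 < h ∧ x ^ h ∈ J1Fam c0 E)
    -- (FORMAL')
    (r : ℕ) (hr : 1 < r)
    (hdiv : ∀ (E : NLevel p K), ∀ x ∈ J1Fam c0 E, ∃ x' ∈ J1Fam c0 E, x' ^ r = x)
    (hinj : ∀ (E : NLevel p K), ∀ x ∈ J1Fam c0 E, x ^ r = 1 → x = 1)
    -- (EXT-INJ)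
    (hext : ∀ (E : NLevel p K), ∀ x ∈ P00 E, bcO c0 E x = 1 → x = 1)
    -- (DIV)
    (hJdiv : ∀ x : JZero N, ∃ y : JZero N, r • y = x)
    -- (TORS-CMP)
    (hcmp : ∀ (k : ℕ) (a : Atop p K c0), r ^ k • a = 0 → ∃ t : JZero N, j t = a)
    -- (MW)
    (Q : AddSubgroup (JZero N)) (hfg : Q.FG) (hQ : ∀ y ∈ Q, ∀ g : Γℚ, g • y = y) :
    ∃ M₁ : ℕ, 0 < M₁ ∧ ∀ k : ℕ, ∀ y ∈ Q,
      ∃ z' : JZero N, r ^ k • z' = M₁ • y ∧
        ∀ s ∈ (padicPlace p).inertiaSubgroupIn ℚ, s • z' = z' := by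
  letI := actTop c0 hK
  have hdiv' : ∀ (E : NLevel p K), ∀ x ∈ P00 E ⊓ J1Fam c0 E,
      ∃ x' ∈ P00 E ⊓ J1Fam c0 E, x' ^ r = x := by
    intro E x hx
    obtain ⟨x', hx', hxx⟩ := hdiv E x (Subgroup.mem_inf.1 hx).2
    exact ⟨x', Subgroup.mem_inf.2 ⟨hJP E hx', hx'⟩, hxx⟩
  have hinj' : ∀ (E : NLevel p K), ∀ x ∈ P00 E ⊓ J1Fam c0 E, x ^ r = 1 → x = 1 :=
    fun E x hx => hinj E x (Subgroup.mem_inf.1 hx).2
  have hT' := tors_J0top c0 P00 hPP htors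
  have hD := div_J1top c0 P00 hPP r hdiv'
  have hI := inj_J1top c0 P00 hPP r hext hinj'
  have hstab : ∀ τ : ↥(Ip p), ∀ x ∈ J1top c0 P00 hPP, τ • x ∈ J1top c0 P00 hPP :=
    fun τ x hx => smul_mem_J1top c0 P00 hPP hK hJP τ hx
  have hδJ0 : ∀ x ∈ J0top c0 P00 hPP, δ x = 0 :=
    hom_eq_zero_of_tors_div δ hr (J0top c0 P00 hPP) (J1top c0 P00 hPP) hD hT'
  have hδj : ∀ x : JZero N, δ (j x) = 0 := fun x =>
    hom_eq_zero_of_divisible (δ.comp j) hr ⊤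
      (fun x _ => by obtain ⟨y, hy⟩ := hJdiv x; exact ⟨y, AddSubgroup.mem_top y, hy⟩) x
      (AddSubgroup.mem_top x)
  have hCusp : ∀ x : JZero N, ∀ z ∈ JextTop c0, j x - z ∈ J0top c0 P00 hPP →
      ν • z ∈ J0top c0 P00 hPP := by
    intro x z hz hxz
    refine cusp_of_twist c0 P00 hPP md hmdker hmdmap E0 T hT ν hT0 hT1 hν δ hδJ0 z₀ hz₀ hδz₀ z hz ?_
    have h1 := hδJ0 _ hxz
    rw [map_sub, hδj, zero_sub, neg_eq_zero] at h1
    exact h1
  have hphi' : ∀ y ∈ PtTop c0, (∀ τ : ↥(Ip p), τ • y = y) →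
      ∃ z ∈ JextTop c0, y - z ∈ J0top c0 P00 hPP := fun y hy hyI =>
    ⟨y, hphi y hy hyI, by rw [sub_self]; exact (J0top c0 P00 hPP).zero_mem⟩
  have hJdivk : ∀ (k : ℕ) (x : JZero N), ∃ y : JZero N, r ^ k • y = x := by
    intro k
    induction k with
    | zero => exact fun x => ⟨x, by rw [pow_zero, one_smul]⟩
    | succ k ih =>
      intro x
      obtain ⟨y₁, hy₁⟩ := ih x
      obtain ⟨y₂, hy₂⟩ := hJdiv y₁
      exact ⟨y₂, by rw [pow_succ, mul_smul, hy₂, hy₁]⟩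
  obtain ⟨M₁, hM₁, hk⟩ := k3_of_local (G := Γℚ) (resIp p) j hj (fun τ x => hjres τ x)
    (PtTop c0) (J0top c0 P00 hPP) (J1top c0 P00 hPP) (JextTop c0) hjPt r ν hν hphi'
    hCusp hT' hstab hD hI hJdivk hcmp Q hfg hQ
  refine ⟨M₁, hM₁, fun k y hy => ?_⟩
  obtain ⟨z', hz', hz'I⟩ := hk k y hy
  refine ⟨z', hz', ?_⟩
  exact (Fermat.Agent.T1B.Plumb66.Inertia.forall_IA_iff p (P := fun s => s • z' = z')).2
    (fun τ hτ => hz'I ⟨τ, (mem_Ip p).2 hτ⟩)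

/-! ### `O(-1)` on the generic fibre -/

/-- **`O(-1)` at any level has nonzero degree on the generic fibre** (and lies in `JextTop`). -/
theorem degTop_twCls_ne_zero
    (hd0 : letI := algWKbar p K; IsDomain (Kbar p ⊗[Wb p K] B0))
    (hd1 : letI := algWKbar p K; IsDomain (Kbar p ⊗[Wb p K] B1))
    (hnt : letI := algWKbar p K; Nontrivial (Kbar p ⊗[Wb p K] B01))
    (hc : letI := algWKbar p K; (c0.baseChange (Kbar p)).FiniteProjOverLine)
    (E : NLevel p K) :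
    degTop c0 hd0 hd1 hnt hc
      (Additive.ofMul (bcO c0 E
        (letI := algWO E.lev; twCls (c0.baseChange ↥(intSubring p E.E)) (-1)))) ≠ 0 := by
  letI := algWO E.lev
  letI := algWKbar p K
  letI := algOKbar E.E
  haveI := tower_W_O_Kbar E.lev
  haveI := hd0
  haveI := hd1
  haveI := hnt
  have h1 : bcO c0 E (twCls (c0.baseChange ↥(intSubring p E.E)) (-1)) =
      twCls (c0.baseChange (Kbar p)) (-1) :=
    map_twCls c0 ↥(intSubring p E.E) (Kbar p) (-1)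
  rw [degTop_ofMul, h1]
  intro h
  exact degHom_twCls_ne_one (c0.baseChange (Kbar p)) hc (by norm_num : (-1 : ℤ) ≠ 0)
    (Multiplicative.toAdd.injective h)

/-! ### LeafK3 -/

/-- **LeafK3 at level `p` from the local bricks at level `M`, SECTION-FREE.** -/
theorem leafK3_of_local_tw [NeZero p] (hK : InertFixed (padicPlace p) K)
    (P00 : ∀ E : NLevel p K, Subgroup (PicO c0 E)) (hPP : Compatible c0 P00)
    (hJP : ∀ E, J1Fam c0 E ≤ P00 E)
    {M : ℕ} [NeZero M] (hpM : p ∣ M)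
    -- (GENERIC FIBRE) `X_{ℚ̄_p}` is an integral two-chart curve
    (hd0 : letI := algWKbar p K; IsDomain (Kbar p ⊗[Wb p K] B0))
    (hd1 : letI := algWKbar p K; IsDomain (Kbar p ⊗[Wb p K] B1))
    (hnt : letI := algWKbar p K; Nontrivial (Kbar p ⊗[Wb p K] B01))
    (hfpl : letI := algWKbar p K; (c0.baseChange (Kbar p)).FiniteProjOverLine)
    -- (J-ALL)
    (j : JZero M →+ Atop p K c0) (hj : Function.Injective j)
    (hjres : letI := actTop c0 hK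
      ∀ (τ : ↥(Ip p)) (x : JZero M), j (localGaloisToGlobal p (τ : Gp p) • x) = τ • j x)
    (hjPt : ∀ x, j x ∈ PtTop c0)
    -- (Φ'')
    (hphi : letI := actTop c0 hK
      ∀ y ∈ PtTop c0, (∀ τ : ↥(Ip p), τ • y = y) → y ∈ JextTop c0)
    -- (MD)
    (md : ∀ E : NLevel p K, PicO c0 E →* (Fin 2 → Multiplicative ℤ))
    (hmdker : ∀ E, P00 E = (md E).ker)
    (hmdmap : ∀ (E E' : NLevel p K) (h : E ≤ E') (x : PicO c0 E) (i : Fin 2),
      md E' (bcOO c0 h x) i = md E x i)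
    -- (T)
    (E0 : NLevel p K) (T : PicO c0 E0) (hT : bcO c0 E0 T = 1) (ν : ℕ) (hν : 0 < ν)
    (hT0 : md E0 T 0 = Multiplicative.ofAdd (ν : ℤ))
    (hT1 : md E0 T 1 = Multiplicative.ofAdd (-(ν : ℤ)))
    -- (TORS)
    (htors : ∀ (E : NLevel p K), ∀ x ∈ P00 E, ∃ h : ℕ, 0 < h ∧ x ^ h ∈ J1Fam c0 E)
    -- (FORMAL')
    (r : ℕ) (hr : 1 < r)
    (hdiv : ∀ (E : NLevel p K), ∀ x ∈ J1Fam c0 E, ∃ x' ∈ J1Fam c0 E, x' ^ r = x)
    (hinj : ∀ (E : NLevel p K), ∀ x ∈ J1Fam c0 E, x ^ r = 1 → x = 1)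
    -- (EXT-INJ)
    (hext : ∀ (E : NLevel p K), ∀ x ∈ P00 E, bcO c0 E x = 1 → x = 1)
    -- (DIV)
    (hJdiv : ∀ x : JZero M, ∃ y : JZero M, r • y = x)
    -- (TORS-CMP)
    (hcmp : ∀ (k : ℕ) (a : Atop p K c0), r ^ k • a = 0 → ∃ t : JZero M, j t = a)
    -- (MW) at the prime level `p`
    (hS17 : AddGroup.FG ↥(FixedPoints.addSubgroup Γℚ (JZero p))) :
    ∃ Ap : ValuationSubring (AlgebraicClosure ℚ), Ap.LiesOverPrime p ∧ ∃ M₁ : ℕ, 0 < M₁ ∧
      ∀ k : ℕ, ∀ x ∈ FixedPoints.addSubgroup Γℚ (JZero p),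
        ∃ z' : JZero p, r ^ k • z' = M₁ • x ∧ ∀ s ∈ Ap.inertiaSubgroupIn ℚ, s • z' = z' := by
  obtain ⟨hQfg, hQfix⟩ := image_fg_fixed (levelPullback hpM)
    (fun g x => Fermat.Agent.ES.RED.PullbackInj12.levelPullback_smul hpM g x) hS17
  obtain ⟨M₀, hM₀, hk⟩ := k3_local_tw c0 hK P00 hPP hJP j hj hjres hjPt hphi md hmdker hmdmap
    E0 T hT ν hν hT0 hT1 (degTop c0 hd0 hd1 hnt hfpl) _
    ((mem_JextTop c0).2 ⟨E0, _, rfl⟩) (degTop_twCls_ne_zero c0 hd0 hd1 hnt hfpl E0)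
    htors r hr hdiv hinj hext hJdiv hcmp
    ((FixedPoints.addSubgroup Γℚ (JZero p)).map (levelPullback hpM)) hQfg hQfix
  refine ⟨padicPlace p, Fermat.Agent.T1.LocModel46.liesOverPrime p,
    Fermat.Agent.MAZ.K3Level44.levelDeg hpM * M₀,
    Nat.mul_pos (Fermat.Agent.MAZ.K3Level44.levelDeg_pos hpM) hM₀, ?_⟩
  exact Fermat.Agent.MAZ.K3Level44.k3_transfer_image hpM r
    ((padicPlace p).inertiaSubgroupIn ℚ : Set Γℚ) M₀
    (fun k x hx => hk k _ (AddSubgroup.mem_map_of_mem _ hx))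

end Fermat.Agent.MAZ.K3Asm7
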