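/-
Programme MAZ (S15), brick K3-ASM (helper7): **LeafK3 FROM A FAMILY OF PER-LEVEL NODAL PACKAGES.**

`K3Asm7.leafK3_of_local_tw` with the level-wise bricks plugged in:

* `D : ∀ E : NLevel p K, K3Levels77.LevelData c0 E` (helper77) gives `P00 E := (D E).P00`
  (`= Bal60.P00 (D E).hg (D E).X`), `hJP` (`hJP_of_levelData`), (TORS) (`htors_of_levelData`) and, with a
  `W`-level Čech datum `DC`, (EXT-INJ) (`K3Levels26.hext_of_P00`, helper26);
* (FORMAL') = `K3Levels26.hdiv_levels` / `hinj_levels` (helper26), from `c0.FiniteProjOverLine` + `DC`;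
* (MD): `md E := Bal60.Mdeg (D E).hg (D E).X` (`mdFam`), `P00 E = ker (md E)` (`Bal60.P00_eq_ker`);
  the ONLY compatibility hypothesis between the levels is
  `hmdmap : md E' (bcOO c0 h x) i = md E x i` (`Bal60.Mdeg_map` / `NodalBC53.Tower.Mdeg_map_square`):
  `Compatible c0 P00` FOLLOWS from it (`compatible_of_mdmap`);
* `hfpl` (the generic fibre is finite projective over the line) = `hfp.baseChange (Kbar p)`.

What is left as hypotheses: the generic fibre is integral (`hd0 hd1 hnt`), (J-ALL), (Φ''), ONE vertical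
twist (T), (DIV), (TORS-CMP), S17.
-/
import Mathlib
import Fermat.Agent.MAZ.K3Asm7.NoSection
import Fermat.Agent.MAZ.K3Levels77.Level
import Fermat.Agent.MAZ.K3Levels26.Formal
import Fermat.Agent.MAZ.K3Levels26.ExtInj

set_option autoImplicit false
set_option linter.unusedSectionVars false
set_option linter.unusedVariables false
set_option linter.style.haveILetI false
set_option synthInstance.maxHeartbeats 400000
set_option maxHeartbeats 1000000

open TensorProduct
open Fermat.Agent.TW.B5.Iface Fermat.Agent.RED.Interface4 Fermat.Agent.T1.HubInst98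
open Fermat.Agent.T1.IntSub47 Fermat.Agent.Jac Fermat.Agent.T1.RedIface75
open Fermat.Agent.T1.CechFormal70
open Fermat.Agent.T1B.Local66.LocalBase Fermat.Agent.T1B.Local66.Union
open Fermat.Agent.T1B.Local66.Objects
open Fermat.Agent.T1B.Plumb66.Inertia (Ip mem_Ip)
open Fermat.Agent.T1B.Bridge54.IpAction Fermat.Agent.T1B.Bridge54.IpInst
open Fermat.Agent.T1B.Bridge54.IpUnion
open Fermat.Agent.ES.P36.InertField27 (InertFixed)
open Fermat.Agent.MAZ.K3Levels77
open ModularCurve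
open Fermat.Agent.Jac.BaseChange75
open scoped Fermat.Agent.Jac.BaseChange75

noncomputable section

namespace Fermat.Agent.MAZ.K3Asm7

local notation "Γℚ" => (AlgebraicClosure ℚ ≃ₐ[ℚ] AlgebraicClosure ℚ)

variable {p : ℕ} [Fact p.Prime] {K : IntermediateField ℚ Qbar}
  {B0 B1 B01 : Type} [CommRing B0] [CommRing B1] [CommRing B01]
  [Algebra (Wb p K) B0] [Algebra (Wb p K) B1] [Algebra (Wb p K) B01] [Algebra B0 B01]
  [Algebra B1 B01] [IsScalarTower (Wb p K) B0 B01] [IsScalarTower (Wb p K) B1 B01]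
  (c0 : TwoChart (Wb p K) B0 B1 B01)

/-- **The multidegree family** of a family of per-level nodal packages. -/
def mdFam (D : ∀ E : NLevel p K, LevelData c0 E) (E : NLevel p K) :
    PicO c0 E →* (Fin 2 → Multiplicative ℤ) :=
  letI := algWO E.lev
  Fermat.Agent.T1B.Bal60.Mdeg (D E).hg (D E).X

/-- `P00 E` is the kernel of the multidegree. -/
theorem P00_eq_ker_mdFam (D : ∀ E : NLevel p K, LevelData c0 E) (E : NLevel p K) :
    (D E).P00 = (mdFam c0 D E).ker := by
  letI := algWO E.lev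
  exact Fermat.Agent.T1B.Bal60.P00_eq_ker (D E).hg (D E).X

/-- **`Compatible c0 P00` follows from the compatibility of the multidegrees.** -/
theorem compatible_of_mdmap (D : ∀ E : NLevel p K, LevelData c0 E)
    (hmdmap : ∀ (E E' : NLevel p K) (h : E ≤ E') (x : PicO c0 E) (i : Fin 2),
      mdFam c0 D E' (bcOO c0 h x) i = mdFam c0 D E x i) :
    Compatible c0 (fun E => (D E).P00) := by
  intro E E' h x hx
  have hx' : x ∈ (D E).P00 := hx
  show bcOO c0 h x ∈ (D E').P00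
  rw [P00_eq_ker_mdFam, MonoidHom.mem_ker] at hx' ⊢
  funext i
  rw [hmdmap E E' h x i, hx']

variable [Nonempty (NLevel p K)]

/-- **LeafK3 at level `p` from a family of per-level nodal packages at level `M`** (`p ∣ M`). -/
theorem leafK3_of_levelData_tw [NeZero p] (hK : InertFixed (padicPlace p) K)
    [Module.Flat (Wb p K) B0] [Nontrivial B0]
    {g : ℕ} (DC : CechData (Wb p K) B0 B1 B01 g)
    (hρ0 : ∀ x, DC.ρ0 x = algebraMap B0 B01 x) (hρ1 : ∀ x, DC.ρ1 x = algebraMap B1 B01 x)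
    (hfp : c0.FiniteProjOverLine)
    -- (LEVELS)
    (D : ∀ E : NLevel p K, LevelData c0 E)
    (hmdmap : ∀ (E E' : NLevel p K) (h : E ≤ E') (x : PicO c0 E) (i : Fin 2),
      mdFam c0 D E' (bcOO c0 h x) i = mdFam c0 D E x i)
    {M : ℕ} [NeZero M] (hpM : p ∣ M)
    -- (GENERIC FIBRE) `X_{ℚ̄_p}` is integral
    (hd0 : letI := algWKbar p K; IsDomain (Kbar p ⊗[Wb p K] B0))
    (hd1 : letI := algWKbar p K; IsDomain (Kbar p ⊗[Wb p K] B1))
    (hnt : letI := algWKbar p K; Nontrivial (Kbar p ⊗[Wb p K] B01))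
    -- (J-ALL)
    (j : JZero M →+ Atop p K c0) (hj : Function.Injective j)
    (hjres : letI := actTop c0 hK
      ∀ (τ : ↥(Ip p)) (x : JZero M), j (localGaloisToGlobal p (τ : Gp p) • x) = τ • j x)
    (hjPt : ∀ x, j x ∈ PtTop c0)
    -- (Φ'')
    (hphi : letI := actTop c0 hK
      ∀ y ∈ PtTop c0, (∀ τ : ↥(Ip p), τ • y = y) → y ∈ JextTop c0)
    -- (T)
    (E0 : NLevel p K) (T : PicO c0 E0) (hT : bcO c0 E0 T = 1) (ν : ℕ) (hν : 0 < ν)
    (hT0 : mdFam c0 D E0 T 0 = Multiplicative.ofAdd (ν : ℤ))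
    (hT1 : mdFam c0 D E0 T 1 = Multiplicative.ofAdd (-(ν : ℤ)))
    -- the prime `r ≠ p`
    (r : ℕ) (hr : 1 < r) (hrp : Nat.Coprime r p)
    -- (DIV)
    (hJdiv : ∀ x : JZero M, ∃ y : JZero M, r • y = x)
    -- (TORS-CMP)
    (hcmp : ∀ (k : ℕ) (a : Atop p K c0), r ^ k • a = 0 → ∃ t : JZero M, j t = a)
    -- (MW) at the prime level `p`
    (hS17 : AddGroup.FG ↥(FixedPoints.addSubgroup Γℚ (JZero p))) :
    ∃ Ap : ValuationSubring (AlgebraicClosure ℚ), Ap.LiesOverPrime p ∧ ∃ M₁ : ℕ, 0 < M₁ ∧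
      ∀ k : ℕ, ∀ x ∈ FixedPoints.addSubgroup Γℚ (JZero p),
        ∃ z' : JZero p, r ^ k • z' = M₁ • x ∧ ∀ s ∈ Ap.inertiaSubgroupIn ℚ, s • z' = z' := by
  have hfpl : letI := algWKbar p K; (c0.baseChange (Kbar p)).FiniteProjOverLine := by
    letI := algWKbar p K
    exact hfp.baseChange (Kbar p)
  have hext : ∀ (E : NLevel p K), ∀ x ∈ (D E).P00, bcO c0 E x = 1 → x = 1 := fun E =>
    Fermat.Agent.MAZ.K3Levels26.hext_of_P00 c0 DC hρ0 hρ1 E (D E).irr (D E).hg (D E).conn (D E).X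
  exact leafK3_of_local_tw c0 hK (fun E => (D E).P00) (compatible_of_mdmap c0 D hmdmap)
    (hJP_of_levelData D) hpM hd0 hd1 hnt hfpl j hj hjres hjPt hphi (mdFam c0 D)
    (P00_eq_ker_mdFam c0 D) hmdmap E0 T hT ν hν hT0 hT1 (htors_of_levelData D) r hr
    (Fermat.Agent.MAZ.K3Levels26.hdiv_levels c0 DC hρ0 hρ1 hfp hrp)
    (Fermat.Agent.MAZ.K3Levels26.hinj_levels c0 DC hρ0 hρ1 hfp hrp) hext hJdiv hcmp hS17

end Fermat.Agent.MAZ.K3Asm7
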