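/-
Programme MAZ (S15), brick K3-ASM (helper7): **(MD) FOR A FAMILY OF PACKAGES `LevelData.ofNumField`.**

`c0 : TwoChart (Wb p K) B0 B1 B01` flat.  For every level `E : NLevel p K` (`L = E.L`) let
`πL E`, `hgL E : NodalGood (c0.baseChange O_L) (πL E) (Fin 2)`, `XL E i` (components over a finite
field `κ E`) be number-field-level nodal data, and `D E := K3Levels77.LevelData.ofNumField c0 E …`
the package over the complete level `O_E`.  If the components are compatible with the base changes
`O_L → O_L'` (`Bal60.CompBC (XL E i) (XL E' i)`, e.g. helper60's `Bal60.compBC_numField`), then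

  `hmdmap_ofNumField : mdFam c0 D E' (bcOO c0 h x) i = mdFam c0 D E x i`

(helper53's `NodalBC53.Tower.Mdeg_map_square`, `f = id`): the hypothesis `hmdmap` of
`K3Asm7.leafK3_of_levelData_tw` for THIS family `D` (no definitional bridging needed).
-/
import Mathlib
import Fermat.Agent.MAZ.K3Asm7.Levels
import Fermat.Agent.T1B.NodalBC53.Tower

set_option autoImplicit false
set_option linter.unusedSectionVars false
set_option linter.unusedVariables false
set_option linter.style.haveILetI false
set_option synthInstance.maxHeartbeats 1000000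
set_option maxHeartbeats 20000000

open TensorProduct
open Fermat.Agent.TW.B5.Iface Fermat.Agent.RED.Interface4 Fermat.Agent.T1.HubInst98
open Fermat.Agent.T1.LocModel46 Fermat.Agent.T1.IntSub47
open Fermat.Agent.T1B.Local66.LocalBase Fermat.Agent.T1B.Local66.Union
open Fermat.Agent.T1B.Bridge54.IpUnion
open Fermat.Agent.PT.BR.LocInj13
open Fermat.Agent.Jac Fermat.Agent.Jac.BaseChange75 Fermat.Agent.T1B.RedN3 Fermat.Agent.T1B.Bal60
open Fermat.Agent.T1.RedIface75
open Fermat.Agent.T1B.NodalBC53.Fibre Fermat.Agent.T1B.NodalBC53.Transfer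
  Fermat.Agent.T1B.NodalBC53.Bal Fermat.Agent.T1B.NodalBC53.Tower Fermat.Agent.T1B.NodalBC53.Level
open Fermat.Agent.RED.PUR.GaussGen8 (IsUnif)
open Fermat.Agent.MAZ.K3Levels77
open scoped Fermat.Agent.Jac.BaseChange75

noncomputable section

namespace Fermat.Agent.MAZ.K3Asm7

variable {p : ℕ} [Fact p.Prime] {K : IntermediateField ℚ Qbar}
  {B0 B1 B01 : Type} [CommRing B0] [CommRing B1] [CommRing B01]
  [Algebra (Wb p K) B0] [Algebra (Wb p K) B1] [Algebra (Wb p K) B01] [Algebra B0 B01]
  [Algebra B1 B01] [IsScalarTower (Wb p K) B0 B01] [IsScalarTower (Wb p K) B1 B01]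
  [Module.Flat (Wb p K) B0] [Module.Flat (Wb p K) B1] [Module.Flat (Wb p K) B01]
  (c0 : TwoChart (Wb p K) B0 B1 B01)

/-- the scalar tower `W = O_K → O_L → O_L'`. -/
theorem tower_W_OL_OL7 {L L' : IntermediateField ℚ Qbar} (h : K ≤ L) (h' : L ≤ L') :
    letI := algAK (padicPlace p) h
    letI := algAK (padicPlace p) h'
    letI := algAK (padicPlace p) (h.trans h')
    IsScalarTower (Wb p K) (Wb p L) (Wb p L') := by
  letI := algAK (padicPlace p) h
  letI := algAK (padicPlace p) h'
  letI := algAK (padicPlace p) (h.trans h')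
  exact IsScalarTower.of_algebraMap_eq (fun x => (inclAK_trans (padicPlace p) h h' x).symm)

/-- **(MD), compatibility with the base changes**, for the family of packages
`D E := LevelData.ofNumField c0 E (hπL E) (hgL E) (κ E) (XL E) (connL E) (ne0L E) (ne1L E)`. -/
theorem hmdmap_ofNumField
    (πL : ∀ E : NLevel p K, Wb p E.L)
    (hπL : ∀ E : NLevel p K, IsUnif (AK (padicPlace p) E.L) (πL E))
    (hgL : ∀ E : NLevel p K, letI := algAK (padicPlace p) E.leL
      NodalGood (c0.baseChange (Wb p E.L)) (πL E) (Fin 2))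
    (κ : NLevel p K → Type) [fκ : ∀ E, Field (κ E)] [∀ E, Finite (κ E)]
    (algκ : ∀ E E' : NLevel p K, E ≤ E' → Algebra (κ E) (κ E'))
    (XL : ∀ E : NLevel p K, letI := algAK (padicPlace p) E.leL
      ∀ i, Comp (c0.baseChange (Wb p E.L)) ((hgL E).P0 i) ((hgL E).P1 i) (κ E))
    (connL : ∀ E : NLevel p K, letI := algAK (padicPlace p) E.leL
      Connected (hgL E))
    (ne0L : ∀ E : NLevel p K, letI := algAK (padicPlace p) E.leL
      ¬ (hgL E).P0 1 ≤ (hgL E).P0 0)
    (ne1L : ∀ E : NLevel p K, letI := algAK (padicPlace p) E.leL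
      ¬ (hgL E).P1 1 ≤ (hgL E).P1 0)
    (bc : ∀ (E E' : NLevel p K) (hE : E ≤ E'),
      letI := algAK (padicPlace p) E.leL
      letI := algAK (padicPlace p) E'.leL
      letI := algAK (padicPlace p) (NLevel.le_def.1 hE)
      haveI := tower_W_OL_OL7 (p := p) E.leL (NLevel.le_def.1 hE)
      letI := algκ E E' hE
      ∀ i, CompBC (A := Wb p E.L) (R0 := Wb p E.L ⊗[Wb p K] B0) (R1 := Wb p E.L ⊗[Wb p K] B1)
        (R01 := Wb p E.L ⊗[Wb p K] B01) (A' := Wb p E'.L) (R0' := Wb p E'.L ⊗[Wb p K] B0)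
        (R1' := Wb p E'.L ⊗[Wb p K] B1) (R01' := Wb p E'.L ⊗[Wb p K] B01)
        (XL E i) (XL E' i))
    (E E' : NLevel p K) (hE : E ≤ E') (x : PicO c0 E) (i : Fin 2) :
    mdFam c0 (fun E => LevelData.ofNumField c0 E (hπL E) (hgL E) (κ E) (XL E) (connL E) (ne0L E)
        (ne1L E)) E' (bcOO c0 hE x) i =
      mdFam c0 (fun E => LevelData.ofNumField c0 E (hπL E) (hgL E) (κ E) (XL E) (connL E) (ne0L E)
        (ne1L E)) E x i := by
  letI := algAK (padicPlace p) E.leL
  letI := algAK (padicPlace p) E'.leL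
  letI := algAK (padicPlace p) (NLevel.le_def.1 hE)
  haveI := tower_W_OL_OL7 (p := p) E.leL (NLevel.le_def.1 hE)
  letI := algκ E E' hE
  letI := algWO E.levL
  letI := algWO E'.levL
  letI := algWO E.lev
  letI := algWO E'.lev
  letI := algOO (p := p) (NLevel.E_le hE)
  haveI := tower_W_OL_OE E.leL E.levL
  haveI := tower_W_OL_OE E'.leL E'.levL
  haveI := tower_W_O_O E.lev (NLevel.E_le hE)
  have hsq : ∀ x : Wb p E.L,
      algebraMap ↥(intSubring p E.E) ↥(intSubring p E'.E)
        (algebraMap (Wb p E.L) ↥(intSubring p E.E) x) =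
      algebraMap (Wb p E'.L) ↥(intSubring p E'.E) (algebraMap (Wb p E.L) (Wb p E'.L) x) :=
    fun x => Subtype.ext rfl
  exact Mdeg_map_square c0 hsq
    (sameFibre_level E.levL (denseIn_level E) (hπL E).ne_zero)
    (sameFibre_level E'.levL (denseIn_level E') (hπL E').ne_zero)
    (regular_level E.levL (hπL E).ne_zero) (regular_level E'.levL (hπL E').ne_zero)
    (hgL E) (hgL E') (XL E) (XL E') id (bc E E' hE) x i

end Fermat.Agent.MAZ.K3Asm7
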